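/-
GATE-Z / node (CONST), abstract half (helper36), Mathlib only.

`k` a finite field of characteristic `r`, `V` a finite `k`-vector space, `ρ : G →* End_k V` a
representation of a group and `χ : G →* kˣ` a character such that EVERY `g ∈ G` has its eigenvalues
among `1, χ g`:

  `TwoEig ρ χ : ∀ g, IsNilpotent ((ρ g - 1) * (ρ g - χ g))`.

Then (Kolchin + a cyclic quotient):

* `exists_eigenline` : `V ≠ 0` contains a nonzero vector on which `G` acts through `1` or `χ`;
* `exists_flag`      : there is a complete flag of `G`-stable subspaces whose graded pieces are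
  lines with character `1` or `χ`;
* `simple_subquotient` : every simple subquotient of `V` is a line with character `1` or `χ`.

In the application `k = 𝔽_r`, `V = J₀(p)[r]_P` (Eisenstein part), `χ` the mod `r` cyclotomic
character: the constituents of `V` are `ℤ/r` and `μ_r`.  `r = 2` is allowed (`χ = 1`).
-/
import Mathlib

set_option autoImplicit false

namespace Fermat.Agent.GZ.Const.Kolchin

open Module

section Defs

variable {k : Type*} [Field k] {V : Type*} [AddCommGroup V] [Module k V] {G : Type*} [Group G]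

/-- every `g` has its eigenvalues among `1, χ g` -/
def TwoEig (ρ : G →* Module.End k V) (χ : G →* kˣ) : Prop :=
  ∀ g, IsNilpotent ((ρ g - 1) * (ρ g - ((χ g : kˣ) : k) • (1 : Module.End k V)))

/-- a submodule stable under the action -/
def Stable (ρ : G →* Module.End k V) (W : Submodule k V) : Prop := ∀ g, ∀ w ∈ W, ρ g w ∈ W

theorem stable_bot (ρ : G →* Module.End k V) : Stable ρ ⊥ := by
  intro g w hw
  rw [Submodule.mem_bot] at hw
  rw [hw, map_zero]
  exact Submodule.zero_mem _

theorem stable_top (ρ : G →* Module.End k V) : Stable ρ ⊤ := fun _ _ _ => Submodule.mem_top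

/-- elements of the kernel of `χ` are unipotent -/
theorem isNilpotent_sub_one_of_ker {ρ : G →* Module.End k V} {χ : G →* kˣ} (h : TwoEig ρ χ)
    {g : G} (hg : χ g = 1) : IsNilpotent (ρ g - 1) := by
  obtain ⟨n, hn⟩ := h g
  rw [hg, Units.val_one, one_smul] at hn
  refine ⟨2 * n, ?_⟩
  rw [pow_mul, pow_two]
  exact hn

theorem apply_inv_apply (ρ : G →* Module.End k V) (g : G) (v : V) : ρ g (ρ g⁻¹ v) = v := by
  rw [← Module.End.mul_apply, ← map_mul, mul_inv_cancel, map_one, Module.End.one_apply]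

theorem inv_apply_apply (ρ : G →* Module.End k V) (g : G) (v : V) : ρ g⁻¹ (ρ g v) = v := by
  rw [← Module.End.mul_apply, ← map_mul, inv_mul_cancel, map_one, Module.End.one_apply]

theorem pow_apply_of_eigen (ρ : G →* Module.End k V) (g : G) (v : V) (c : k)
    (h : ρ g v = c • v) (n : ℕ) : ρ (g ^ n) v = c ^ n • v := by
  induction n with
  | zero => rw [pow_zero, pow_zero, map_one, Module.End.one_apply, one_smul]
  | succ n ih =>
    rw [pow_succ, map_mul, Module.End.mul_apply, h, map_smul, ih, smul_smul, pow_succ, mul_comm]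

end Defs

section Unipotent

variable {k : Type*} [Field k] {V : Type*} [AddCommGroup V] [Module k V] {G : Type*} [Group G]

/-- in characteristic `r` a unipotent element has `r`-power order -/
theorem pow_char_pow_eq_one {R : Type*} [Ring R] (r : ℕ) [Fact r.Prime] [CharP R r] {x : R} {n : ℕ}
    (hx : (x - 1) ^ n = 0) : x ^ r ^ n = 1 := by
  have h1 : (x - 1) ^ r ^ n = x ^ r ^ n - 1 ^ r ^ n :=
    sub_pow_char_pow_of_commute r n (Commute.one_right x)
  have h2 : (x - 1) ^ r ^ n = 0 :=
    pow_eq_zero_of_le (Nat.lt_pow_self (Fact.out : r.Prime).one_lt).le hx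
  rw [h2, one_pow] at h1
  exact (sub_eq_zero.mp h1.symm)

/-- **Kolchin, finite form**: a group of unipotent operators on a nonzero finite vector space
over a field of characteristic `r` has a nonzero fixed vector. -/
theorem exists_fixed_ne_zero (r : ℕ) [Fact r.Prime] [CharP k r] [Finite V] [Nontrivial V]
    (ρ : G →* Module.End k V) (S : Subgroup G) (hS : ∀ s ∈ S, IsNilpotent (ρ s - 1)) :
    ∃ v : V, v ≠ 0 ∧ ∀ s ∈ S, ρ s v = v := by
  classical
  haveI : CharP (Module.End k V) r :=
    charP_of_injective_algebraMap (algebraMap k (Module.End k V)).injective r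
  set ρu : G →* (Module.End k V)ˣ := ρ.toHomUnits with hρu
  set K : Subgroup (Module.End k V)ˣ := S.map ρu with hK
  have hKp : IsPGroup r K := by
    rintro ⟨u, hu⟩
    obtain ⟨s, hs, rfl⟩ := Subgroup.mem_map.mp hu
    obtain ⟨n, hn⟩ := hS s hs
    refine ⟨n, ?_⟩
    apply Subtype.ext
    apply Units.ext
    change ((ρu s) ^ r ^ n : (Module.End k V)ˣ).val = 1
    rw [Units.val_pow_eq_pow_val]
    exact pow_char_pow_eq_one r hn
  -- `r` divides the cardinality of `V`
  have hcard : r ∣ Nat.card V := by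
    obtain ⟨v, hv⟩ := exists_ne (0 : V)
    have hr : r • v = 0 := by
      rw [← Nat.cast_smul_eq_nsmul k, CharP.cast_eq_zero, zero_smul]
    have hord : addOrderOf v = r := by
      have hdvd := addOrderOf_dvd_of_nsmul_eq_zero hr
      rcases (Nat.dvd_prime (Fact.out : r.Prime)).mp hdvd with h1 | h1
      · exact absurd (AddMonoid.addOrderOf_eq_one_iff.mp h1) hv
      · exact h1
    rw [← hord]
    exact addOrderOf_dvd_natCard v
  have h0 : (0 : V) ∈ MulAction.fixedPoints K V := by
    intro u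
    exact smul_zero u
  obtain ⟨b, hb, hb0⟩ := hKp.exists_fixed_point_of_prime_dvd_card_of_fixed_point V hcard h0
  refine ⟨b, fun h => hb0 h.symm, fun s hs => ?_⟩
  have := hb ⟨ρu s, Subgroup.mem_map_of_mem ρu hs⟩
  exact this

end Unipotent

section Eigenline

variable {k : Type*} [Field k] {V : Type*} [AddCommGroup V] [Module k V] {G : Type*} [Group G]

/-- the vectors fixed by the kernel of `χ` -/
def kerFixed (ρ : G →* Module.End k V) (χ : G →* kˣ) : Submodule k V :=
  ⨅ s : χ.ker, LinearMap.ker (ρ (s : G) - 1)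

theorem mem_kerFixed (ρ : G →* Module.End k V) (χ : G →* kˣ) (w : V) :
    w ∈ kerFixed ρ χ ↔ ∀ s : G, χ s = 1 → ρ s w = w := by
  unfold kerFixed
  rw [Submodule.mem_iInf]
  constructor
  · intro h s hs
    have := h ⟨s, MonoidHom.mem_ker.mpr hs⟩
    rw [LinearMap.mem_ker, LinearMap.sub_apply, Module.End.one_apply, sub_eq_zero] at this
    exact this
  · rintro h ⟨s, hs⟩
    rw [LinearMap.mem_ker, LinearMap.sub_apply, Module.End.one_apply, sub_eq_zero]
    exact h s (MonoidHom.mem_ker.mp hs)

theorem stable_kerFixed (ρ : G →* Module.End k V) (χ : G →* kˣ) : Stable ρ (kerFixed ρ χ) := by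
  intro g w hw
  rw [mem_kerFixed] at hw ⊢
  intro s hs
  have h1 : χ (g⁻¹ * s * g) = 1 := by
    rw [map_mul, map_mul, hs, mul_one, map_inv, inv_mul_cancel]
  have h2 := hw _ h1
  have h3 : s * g = g * (g⁻¹ * s * g) := by group
  rw [← Module.End.mul_apply, ← map_mul, h3, map_mul, Module.End.mul_apply, h2]

/-- **The eigenline.**  Under `TwoEig`, a nonzero finite `V` contains a nonzero vector on which
`G` acts trivially or through `χ`. -/
theorem exists_eigenline (r : ℕ) [Fact r.Prime] [CharP k r] [Finite k] [Finite V] [Nontrivial V]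
    (ρ : G →* Module.End k V) (χ : G →* kˣ) (h : TwoEig ρ χ) :
    ∃ v : V, v ≠ 0 ∧ ((∀ g, ρ g v = v) ∨ (∀ g, ρ g v = ((χ g : kˣ) : k) • v)) := by
  classical
  -- a nonzero vector fixed by `ker χ`
  obtain ⟨w, hw0, hwS⟩ := exists_fixed_ne_zero r ρ χ.ker
    (fun s hs => isNilpotent_sub_one_of_ker h (MonoidHom.mem_ker.mp hs))
  have hwW : w ∈ kerFixed ρ χ := (mem_kerFixed ρ χ w).mpr fun s hs => hwS s (MonoidHom.mem_ker.mpr hs)
  -- a generator of the image of `χ`
  haveI : IsCyclic χ.range := Subgroup.isCyclic _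
  obtain ⟨⟨c, hc⟩, hgen⟩ := IsCyclic.exists_generator (α := χ.range)
  obtain ⟨g₀, rfl⟩ := MonoidHom.mem_range.mp hc
  have hpow : ∀ g : G, ∃ n : ℕ, χ g₀ ^ n = χ g := by
    intro g
    have h1 := hgen ⟨χ g, MonoidHom.mem_range.mpr ⟨g, rfl⟩⟩
    rw [← mem_powers_iff_mem_zpowers] at h1
    obtain ⟨n, hn⟩ := Submonoid.mem_powers_iff _ _ |>.mp h1
    refine ⟨n, ?_⟩
    have := congrArg (fun x : χ.range => (x : kˣ)) hn
    simpa using this
  -- the two factors preserve `kerFixed`
  set c : k := ((χ g₀ : kˣ) : k) with hcdef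
  set A : Module.End k V := ρ g₀ - 1 with hA
  set B : Module.End k V := ρ g₀ - c • 1 with hB
  have hAW : ∀ x ∈ kerFixed ρ χ, A x ∈ kerFixed ρ χ := fun x hx => by
    rw [hA, LinearMap.sub_apply, Module.End.one_apply]
    exact Submodule.sub_mem _ (stable_kerFixed ρ χ g₀ x hx) hx
  have hBW : ∀ x ∈ kerFixed ρ χ, B x ∈ kerFixed ρ χ := fun x hx => by
    rw [hB, LinearMap.sub_apply, LinearMap.smul_apply, Module.End.one_apply]
    exact Submodule.sub_mem _ (stable_kerFixed ρ χ g₀ x hx) (Submodule.smul_mem _ _ hx)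
  have hNW : ∀ x ∈ kerFixed ρ χ, (A * B) x ∈ kerFixed ρ χ := fun x hx => by
    rw [Module.End.mul_apply]
    exact hAW _ (hBW x hx)
  have hNpow : ∀ j : ℕ, ((A * B) ^ j) w ∈ kerFixed ρ χ := by
    intro j
    induction j with
    | zero => rw [pow_zero, Module.End.one_apply]; exact hwW
    | succ j ih => rw [pow_succ', Module.End.mul_apply]; exact hNW _ ih
  -- a nonzero vector of `kerFixed` killed by `A * B`
  obtain ⟨m, hm⟩ := h g₀
  have hex : ∃ j : ℕ, ((A * B) ^ j) w = 0 := ⟨m, by rw [hm, LinearMap.zero_apply]⟩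
  have hj0 : Nat.find hex ≠ 0 := by
    intro h0
    have := Nat.find_spec hex
    rw [h0, pow_zero, Module.End.one_apply] at this
    exact hw0 this
  obtain ⟨j, hj⟩ := Nat.exists_eq_succ_of_ne_zero hj0
  set w₀ : V := ((A * B) ^ j) w with hw₀
  have hw₀W : w₀ ∈ kerFixed ρ χ := hNpow j
  have hw₀0 : w₀ ≠ 0 := Nat.find_min hex (by rw [hj]; exact Nat.lt_succ_self j)
  have hw₀N : (A * B) w₀ = 0 := by
    have := Nat.find_spec hex
    rw [hj, pow_succ', Module.End.mul_apply] at this
    exact this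
  -- an eigenvector of `ρ g₀` in `kerFixed` with eigenvalue `1` or `c`
  obtain ⟨v, hvW, hv0, hv⟩ : ∃ v ∈ kerFixed ρ χ, v ≠ 0 ∧ (ρ g₀ v = v ∨ ρ g₀ v = c • v) := by
    by_cases hB0 : B w₀ = 0
    · refine ⟨w₀, hw₀W, hw₀0, Or.inr ?_⟩
      rw [hB, LinearMap.sub_apply, LinearMap.smul_apply, Module.End.one_apply, sub_eq_zero] at hB0
      exact hB0
    · refine ⟨B w₀, hBW _ hw₀W, hB0, Or.inl ?_⟩
      rw [Module.End.mul_apply, hA, LinearMap.sub_apply, Module.End.one_apply, sub_eq_zero]
        at hw₀N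
      exact hw₀N
  -- the action of a general `g`
  have hact : ∀ (lam : k), ρ g₀ v = lam • v → ∀ (g : G) (n : ℕ), χ g₀ ^ n = χ g →
      ρ g v = lam ^ n • v := by
    intro lam hlam g n hn
    have hs : χ ((g₀ ^ n)⁻¹ * g) = 1 := by
      rw [map_mul, map_inv, map_pow, hn, inv_mul_cancel]
    have h1 := (mem_kerFixed ρ χ v).mp hvW _ hs
    have h2 : g = g₀ ^ n * ((g₀ ^ n)⁻¹ * g) := by group
    rw [h2, map_mul, Module.End.mul_apply, h1]
    exact pow_apply_of_eigen ρ g₀ v lam hlam n
  refine ⟨v, hv0, ?_⟩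
  rcases hv with hv1 | hvc
  · left
    intro g
    obtain ⟨n, hn⟩ := hpow g
    have := hact 1 (by rw [one_smul]; exact hv1) g n hn
    rw [one_pow, one_smul] at this
    exact this
  · right
    intro g
    obtain ⟨n, hn⟩ := hpow g
    have := hact c hvc g n hn
    rw [this, hcdef, ← Units.val_pow_eq_pow_val, hn]

end Eigenline

section Quotient

variable {k : Type*} [Field k] {V : Type*} [AddCommGroup V] [Module k V] {G : Type*} [Group G]

/-- the representation on the quotient by a stable submodule -/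
def quotRep (ρ : G →* Module.End k V) (L : Submodule k V) (hL : Stable ρ L) :
    G →* Module.End k (V ⧸ L) where
  toFun g := L.mapQ L (ρ g) (fun w hw => hL g w hw)
  map_one' := by
    refine LinearMap.ext fun x => ?_
    obtain ⟨v, rfl⟩ := L.mkQ_surjective x
    simp only [Submodule.mkQ_apply, Submodule.mapQ_apply, map_one, Module.End.one_apply]
  map_mul' g g' := by
    refine LinearMap.ext fun x => ?_
    obtain ⟨v, rfl⟩ := L.mkQ_surjective x
    simp only [Submodule.mkQ_apply, Submodule.mapQ_apply, map_mul, Module.End.mul_apply]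

@[simp] theorem quotRep_mk (ρ : G →* Module.End k V) (L : Submodule k V) (hL : Stable ρ L)
    (g : G) (v : V) : quotRep ρ L hL g (Submodule.Quotient.mk v) = Submodule.Quotient.mk (ρ g v) :=
  rfl

theorem twoEig_quotRep {ρ : G →* Module.End k V} {χ : G →* kˣ} (h : TwoEig ρ χ)
    (L : Submodule k V) (hL : Stable ρ L) : TwoEig (quotRep ρ L hL) χ := by
  intro g
  obtain ⟨m, hm⟩ := h g
  refine ⟨m, ?_⟩
  set c : k := ((χ g : kˣ) : k)
  have step : ∀ u : V,
      ((quotRep ρ L hL g - 1) * (quotRep ρ L hL g - c • 1)) (Submodule.Quotient.mk u) =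
        Submodule.Quotient.mk (((ρ g - 1) * (ρ g - c • 1)) u) := by
    intro u
    simp only [Module.End.mul_apply, LinearMap.sub_apply, LinearMap.smul_apply,
      Module.End.one_apply, quotRep_mk, Submodule.Quotient.mk_sub, Submodule.Quotient.mk_smul,
      map_sub, map_smul]
  generalize hN' : (quotRep ρ L hL g - 1) * (quotRep ρ L hL g - c • 1) = N' at step ⊢
  generalize hN : (ρ g - 1) * (ρ g - c • 1) = N at step hm ⊢
  have key : ∀ (j : ℕ) (v : V),
      (N' ^ j) (Submodule.Quotient.mk v) = Submodule.Quotient.mk ((N ^ j) v) := by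
    intro j
    induction j with
    | zero => intro v; rw [pow_zero, pow_zero, Module.End.one_apply, Module.End.one_apply]
    | succ j ih =>
      intro v
      rw [pow_succ', pow_succ', Module.End.mul_apply, Module.End.mul_apply, ih, step]
  refine LinearMap.ext fun x => ?_
  obtain ⟨v, rfl⟩ := L.mkQ_surjective x
  rw [Submodule.mkQ_apply, key, hm, LinearMap.zero_apply, LinearMap.zero_apply,
    Submodule.Quotient.mk_zero]

/-- the dimension of the preimage of a submodule of the quotient -/
theorem finrank_comap_mkQ [Module.Finite k V] (L : Submodule k V) (q : Submodule k (V ⧸ L)) :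
    finrank k (q.comap L.mkQ) = finrank k q + finrank k L := by
  set W := q.comap L.mkQ with hW
  have hLW : L ≤ W := by
    intro x hx
    rw [hW, Submodule.mem_comap, Submodule.mkQ_apply, (Submodule.Quotient.mk_eq_zero L).mpr hx]
    exact Submodule.zero_mem _
  set f : W →ₗ[k] V ⧸ L := L.mkQ ∘ₗ W.subtype with hf
  have hrange : LinearMap.range f = q := by
    rw [hf, LinearMap.range_comp, Submodule.range_subtype, hW,
      Submodule.map_comap_eq_of_surjective L.mkQ_surjective]
  have hker : LinearMap.ker f = L.comap W.subtype := by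
    rw [hf, LinearMap.ker_comp, Submodule.ker_mkQ]
  have h1 := LinearMap.finrank_range_add_finrank_ker f
  rw [hrange, hker, (Submodule.comapSubtypeEquivOfLe hLW).finrank_eq] at h1
  exact h1.symm

end Quotient

section Flag

variable {k : Type*} [Field k] {G : Type*} [Group G]

/-- The eigenline with its character. -/
theorem exists_eigenline' {V : Type*} [AddCommGroup V] [Module k V] (r : ℕ) [Fact r.Prime]
    [CharP k r] [Finite k] [Finite V] [Nontrivial V]
    (ρ : G →* Module.End k V) (χ : G →* kˣ) (h : TwoEig ρ χ) :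
    ∃ v : V, v ≠ 0 ∧ ∃ ψ : G →* kˣ, (ψ = 1 ∨ ψ = χ) ∧ ∀ g, ρ g v = ((ψ g : kˣ) : k) • v := by
  obtain ⟨v, hv0, hv | hv⟩ := exists_eigenline r ρ χ h
  · exact ⟨v, hv0, 1, Or.inl rfl, fun g => by
      rw [MonoidHom.one_apply, Units.val_one, one_smul]; exact hv g⟩
  · exact ⟨v, hv0, χ, Or.inr rfl, hv⟩

/-- **The flag.**  Under `TwoEig` there is a complete flag `0 = F 0 ≤ F 1 ≤ … ≤ F n = V` of
`G`-stable subspaces, `dim F i = i`, such that `G` acts on `F (i+1) / F i` through `1` or `χ`. -/
theorem exists_flag (r : ℕ) [Fact r.Prime] [CharP k r] [Finite k] :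
    ∀ (d : ℕ) {V : Type*} [AddCommGroup V] [Module k V] [Finite V]
      (ρ : G →* Module.End k V) (χ : G →* kˣ), TwoEig ρ χ → finrank k V = d →
      ∃ F : ℕ → Submodule k V, F 0 = ⊥ ∧ F d = ⊤ ∧ (∀ i, Stable ρ (F i)) ∧
        (∀ i, i < d → F i ≤ F (i + 1)) ∧ (∀ i, i ≤ d → finrank k (F i) = i) ∧
        ∀ i, i < d → ∃ ψ : G →* kˣ, (ψ = 1 ∨ ψ = χ) ∧
          ∀ g, ∀ v ∈ F (i + 1), ρ g v - ((ψ g : kˣ) : k) • v ∈ F i := by
  intro d
  induction d with
  | zero =>
    intro V _ _ _ ρ χ _ hd
    haveI : Module.Finite k V := Module.Finite.of_finite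
    have hbt : (⊥ : Submodule k V) = ⊤ := by
      have := (Submodule.finrank_eq_zero (R := k) (S := (⊤ : Submodule k V))).mp
        (by rw [finrank_top]; exact hd)
      exact this.symm
    refine ⟨fun _ => ⊥, rfl, hbt, fun _ => stable_bot ρ, fun i hi => absurd hi (Nat.not_lt_zero i),
      ?_, fun i hi => absurd hi (Nat.not_lt_zero i)⟩
    intro i hi
    rw [Nat.le_zero.mp hi, finrank_bot]
  | succ d ih =>
    intro V _ _ _ ρ χ h hd
    haveI : Module.Finite k V := Module.Finite.of_finite
    haveI : Nontrivial V := by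
      apply Module.nontrivial_of_finrank_pos (R := k)
      rw [hd]; exact Nat.succ_pos d
    obtain ⟨v, hv0, ψ₀, hψ₀, hv⟩ := exists_eigenline' r ρ χ h
    set L : Submodule k V := Submodule.span k {v} with hLdef
    have hL : Stable ρ L := by
      intro g w hw
      obtain ⟨a, rfl⟩ := Submodule.mem_span_singleton.mp hw
      rw [map_smul, hv g]
      exact Submodule.smul_mem _ _
        (Submodule.smul_mem _ _ (Submodule.mem_span_singleton_self v))
    have hLrank : finrank k L = 1 := finrank_span_singleton hv0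
    have hquot : finrank k (V ⧸ L) = d := by
      have := Submodule.finrank_quotient_add_finrank L
      rw [hLrank, hd] at this
      omega
    haveI : Finite (V ⧸ L) := Finite.of_surjective L.mkQ L.mkQ_surjective
    obtain ⟨F', hF0, hFd, hFst, hFmono, hFrank, hFgr⟩ :=
      ih (quotRep ρ L hL) χ (twoEig_quotRep h L hL) hquot
    refine ⟨fun i => Nat.casesOn i ⊥ (fun j => (F' j).comap L.mkQ), rfl, ?_, ?_, ?_, ?_, ?_⟩
    · change (F' d).comap L.mkQ = ⊤
      rw [hFd, Submodule.comap_top]
    · intro i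
      cases i with
      | zero => exact stable_bot ρ
      | succ j =>
        intro g w hw
        change L.mkQ (ρ g w) ∈ F' j
        exact hFst j g _ hw
    · intro i hi
      cases i with
      | zero => exact bot_le
      | succ j => exact Submodule.comap_mono (hFmono j (Nat.lt_of_succ_lt_succ hi))
    · intro i hi
      cases i with
      | zero => exact finrank_bot k V
      | succ j =>
        change finrank k ((F' j).comap L.mkQ) = j + 1
        rw [finrank_comap_mkQ, hFrank j (Nat.le_of_succ_le_succ hi), hLrank]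
    · intro i hi
      cases i with
      | zero =>
        refine ⟨ψ₀, hψ₀, fun g w hw => ?_⟩
        change w ∈ (F' 0).comap L.mkQ at hw
        rw [hF0, Submodule.comap_bot, Submodule.ker_mkQ] at hw
        obtain ⟨a, rfl⟩ := Submodule.mem_span_singleton.mp hw
        rw [map_smul, hv g, smul_comm, sub_self]
        exact Submodule.zero_mem _
      | succ j =>
        obtain ⟨ψ, hψ, hgr⟩ := hFgr j (Nat.lt_of_succ_lt_succ hi)
        refine ⟨ψ, hψ, fun g w hw => ?_⟩
        change L.mkQ (ρ g w - ((ψ g : kˣ) : k) • w) ∈ F' j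
        have := hgr g (L.mkQ w) hw
        rw [map_sub, map_smul]
        exact this

end Flag

section Simple

variable {k : Type*} [Field k] {V : Type*} [AddCommGroup V] [Module k V] {G : Type*} [Group G]

theorem Stable.inf {ρ : G →* Module.End k V} {W₁ W₂ : Submodule k V} (h₁ : Stable ρ W₁)
    (h₂ : Stable ρ W₂) : Stable ρ (W₁ ⊓ W₂) := fun g w hw =>
  ⟨h₁ g w hw.1, h₂ g w hw.2⟩

theorem Stable.sup {ρ : G →* Module.End k V} {W₁ W₂ : Submodule k V} (h₁ : Stable ρ W₁)
    (h₂ : Stable ρ W₂) : Stable ρ (W₁ ⊔ W₂) := by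
  intro g w hw
  obtain ⟨a, ha, b, hb, rfl⟩ := Submodule.mem_sup.mp hw
  rw [map_add]
  exact Submodule.add_mem _ (Submodule.mem_sup_left (h₁ g a ha)) (Submodule.mem_sup_right (h₂ g b hb))

/-- **Simple subquotients are lines with character `1` or `χ`.** -/
theorem simple_subquotient (r : ℕ) [Fact r.Prime] [CharP k r] [Finite k] [Finite V]
    (ρ : G →* Module.End k V) (χ : G →* kˣ) (h : TwoEig ρ χ) (W' W : Submodule k V)
    (hW' : Stable ρ W') (hW : Stable ρ W) (hle : W' ≤ W) (hne : W' ≠ W)
    (hsimple : ∀ U : Submodule k V, Stable ρ U → W' ≤ U → U ≤ W → U = W' ∨ U = W) :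
    ∃ ψ : G →* kˣ, (ψ = 1 ∨ ψ = χ) ∧ (∀ g, ∀ w ∈ W, ρ g w - ((ψ g : kˣ) : k) • w ∈ W') ∧
      finrank k W = finrank k W' + 1 := by
  classical
  haveI : Module.Finite k V := Module.Finite.of_finite
  obtain ⟨F, hF0, hFd, hFst, -, -, hFgr⟩ := exists_flag (k := k) (G := G) r (finrank k V) ρ χ h rfl
  set U : ℕ → Submodule k V := fun i => (W ⊓ F i) ⊔ W' with hU
  have hUst : ∀ i, Stable ρ (U i) := fun i => (hW.inf (hFst i)).sup hW'
  have hUle : ∀ i, U i ≤ W := fun i => sup_le inf_le_left hle
  have hUge : ∀ i, W' ≤ U i := fun i => le_sup_right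
  have hU0 : U 0 = W' := by
    change (W ⊓ F 0) ⊔ W' = W'
    rw [hF0, inf_bot_eq, bot_sup_eq]
  have hUd : U (finrank k V) = W := by
    change (W ⊓ F (finrank k V)) ⊔ W' = W
    rw [hFd, inf_top_eq, sup_eq_left.mpr hle]
  have hex : ∃ i, U i = W := ⟨_, hUd⟩
  have hi0 : Nat.find hex ≠ 0 := by
    intro h0
    have := Nat.find_spec hex
    rw [h0, hU0] at this
    exact hne this
  obtain ⟨j, hj⟩ := Nat.exists_eq_succ_of_ne_zero hi0
  have hj1 : U (j + 1) = W := by
    have := Nat.find_spec hex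
    rwa [hj] at this
  have hjW' : U j = W' := by
    rcases hsimple (U j) (hUst j) (hUge j) (hUle j) with h1 | h1
    · exact h1
    · exact absurd h1 (Nat.find_min hex (by rw [hj]; exact Nat.lt_succ_self j))
  have hjd : j < finrank k V := by
    have := Nat.find_min' hex hUd
    omega
  obtain ⟨ψ, hψ, hgr⟩ := hFgr j hjd
  have hact : ∀ g, ∀ w ∈ W, ρ g w - ((ψ g : kˣ) : k) • w ∈ W' := by
    intro g w hw
    rw [← hj1] at hw
    obtain ⟨a, ha, b, hb, rfl⟩ := Submodule.mem_sup.mp hw
    have h1 : ρ g a - ((ψ g : kˣ) : k) • a ∈ W' := by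
      rw [← hjW']
      refine Submodule.mem_sup_left ⟨?_, hgr g a ha.2⟩
      exact Submodule.sub_mem _ (hW g a ha.1) (Submodule.smul_mem _ _ ha.1)
    have h2 : ρ g b - ((ψ g : kˣ) : k) • b ∈ W' :=
      Submodule.sub_mem _ (hW' g b hb) (Submodule.smul_mem _ _ hb)
    have h3 : ρ g (a + b) - ((ψ g : kˣ) : k) • (a + b) =
        (ρ g a - ((ψ g : kˣ) : k) • a) + (ρ g b - ((ψ g : kˣ) : k) • b) := by
      rw [map_add, smul_add]; abel
    rw [h3]
    exact Submodule.add_mem _ h1 h2
  refine ⟨ψ, hψ, hact, ?_⟩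
  -- the dimension
  obtain ⟨w₀, hw₀W, hw₀W'⟩ : ∃ w₀ ∈ W, w₀ ∉ W' := by
    by_contra hcon
    apply hne
    apply le_antisymm hle
    intro w hw
    by_contra hw'
    exact hcon ⟨w, hw, hw'⟩
  have hw₀0 : w₀ ≠ 0 := fun h0 => hw₀W' (h0 ▸ Submodule.zero_mem _)
  set U₁ : Submodule k V := W' ⊔ Submodule.span k {w₀} with hU₁
  have hU₁le : U₁ ≤ W := sup_le hle ((Submodule.span_singleton_le_iff_mem w₀ W).mpr hw₀W)
  have hU₁st : Stable ρ U₁ := by
    intro g u hu
    have huW : u ∈ W := hU₁le hu
    have h1 := hact g u huW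
    have h2 : ρ g u = (ρ g u - ((ψ g : kˣ) : k) • u) + ((ψ g : kˣ) : k) • u := by abel
    rw [h2]
    exact Submodule.add_mem _ (Submodule.mem_sup_left h1) (Submodule.smul_mem _ _ hu)
  have hU₁W : U₁ = W := by
    rcases hsimple U₁ hU₁st le_sup_left hU₁le with h1 | h1
    · exfalso
      apply hw₀W'
      rw [← h1]
      exact Submodule.mem_sup_right (Submodule.mem_span_singleton_self w₀)
    · exact h1
  have hinf : W' ⊓ Submodule.span k {w₀} = ⊥ := by
    rw [eq_bot_iff]
    rintro x ⟨hx1, hx2⟩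
    obtain ⟨a, rfl⟩ := Submodule.mem_span_singleton.mp hx2
    by_cases ha : a = 0
    · rw [ha, zero_smul]; exact Submodule.zero_mem _
    · exfalso
      apply hw₀W'
      have := Submodule.smul_mem W' a⁻¹ hx1
      rwa [smul_smul, inv_mul_cancel₀ ha, one_smul] at this
  have h1 := Submodule.finrank_sup_add_finrank_inf_eq W' (Submodule.span k {w₀})
  rw [hinf, finrank_bot, add_zero, finrank_span_singleton hw₀0, ← hU₁, hU₁W] at h1
  exact h1

end Simple

end Fermat.Agent.GZ.Const.Kolchin
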