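/-
GATE-Z / (CONST), file 2 (helper36): the Kolchin flag for FINITE ABELIAN `r`-GROUPS.

`V` a finite abelian `r`-group (`r` prime), `ρ : G →* Module.End ℤ V`, `χ : G →* (ZMod r)ˣ`.
`TwoEigZ r ρ χ` : for every `g` there is an integer `a ≡ χ g mod r` with `(ρ g − 1)(ρ g − a)`
nilpotent (if this holds for one lift `a` it holds for all, `V` being an `r`-group).

* `exists_eigenlineZ` : `V ≠ 0` ⟹ there is `v ≠ 0`, `r • v = 0`, and `ψ ∈ {1, χ}` with
                        `ρ g v = a • v` whenever `a ≡ ψ g mod r`;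
* `quotRepZ`, `twoEigZ_quotRepZ`, `subRepZ`, `twoEigZ_subRepZ` : the condition passes to stable
                        subgroups and to quotients by stable subgroups;
* `exists_flagZ`      : `#V = r ^ d` ⟹ a complete flag `0 = F 0 ≤ F 1 ≤ … ≤ F d = V` of `G`-stable
                        subgroups, `#(F i) = r ^ i`, with `G` acting on `F (i+1) / F i` through `1`
                        or `χ` (`ActsBy`);
* `simple_subquotientZ` : a simple stable subquotient `W / W'` has order `r` and `G` acts on it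
                        through `1` or `χ`  (= "every constituent is `ℤ/r` or `μ_r`").

Mathlib + `GZ/Const/Kolchin` only.
-/
import Mathlib
import Fermat.Agent.GZ.Const.Kolchin

set_option autoImplicit false
set_option linter.style.haveILetI false

open Module

namespace Fermat.Agent.GZ.Const.Tors

open Fermat.Agent.GZ.Const.Kolchin

/-! ### definitions -/

section Defs

variable {V : Type*} [AddCommGroup V] {G : Type*} [Group G]

/-- for every `g` some integer lift `a` of `χ g` makes `(ρ g − 1)(ρ g − a)` nilpotent -/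
def TwoEigZ (r : ℕ) (ρ : G →* Module.End ℤ V) (χ : G →* (ZMod r)ˣ) : Prop :=
  ∀ g, ∃ a : ℤ, (a : ZMod r) = ((χ g : (ZMod r)ˣ) : ZMod r) ∧
    IsNilpotent ((ρ g - 1) * (ρ g - a • 1))

/-- a `G`-stable subgroup -/
def StableZ (ρ : G →* Module.End ℤ V) (W : Submodule ℤ V) : Prop := ∀ g, ∀ w ∈ W, ρ g w ∈ W

/-- `G` acts on `W / W'` through the character `ψ` (for every integer lift of the values) -/
def ActsBy (r : ℕ) (ρ : G →* Module.End ℤ V) (ψ : G →* (ZMod r)ˣ) (W W' : Submodule ℤ V) : Prop :=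
  ∀ (g : G) (a : ℤ), (a : ZMod r) = ((ψ g : (ZMod r)ˣ) : ZMod r) → ∀ w ∈ W, ρ g w - a • w ∈ W'

theorem stableZ_bot (ρ : G →* Module.End ℤ V) : StableZ ρ ⊥ := by
  intro g w hw
  rw [Submodule.mem_bot] at hw ⊢
  rw [hw, map_zero]

theorem stableZ_top (ρ : G →* Module.End ℤ V) : StableZ ρ ⊤ := fun _ _ _ => Submodule.mem_top

theorem StableZ.inf {ρ : G →* Module.End ℤ V} {W₁ W₂ : Submodule ℤ V} (h₁ : StableZ ρ W₁)
    (h₂ : StableZ ρ W₂) : StableZ ρ (W₁ ⊓ W₂) := fun g w hw =>
  ⟨h₁ g w hw.1, h₂ g w hw.2⟩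

theorem StableZ.sup {ρ : G →* Module.End ℤ V} {W₁ W₂ : Submodule ℤ V} (h₁ : StableZ ρ W₁)
    (h₂ : StableZ ρ W₂) : StableZ ρ (W₁ ⊔ W₂) := by
  intro g w hw
  obtain ⟨a, ha, b, hb, rfl⟩ := Submodule.mem_sup.mp hw
  rw [map_add]
  exact Submodule.add_mem _ (Submodule.mem_sup_left (h₁ g a ha))
    (Submodule.mem_sup_right (h₂ g b hb))

/-- the `r`-torsion subgroup is stable -/
theorem stableZ_torsionBy (ρ : G →* Module.End ℤ V) (n : ℤ) :
    StableZ ρ (Submodule.torsionBy ℤ V n) := by
  intro g w hw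
  rw [Submodule.mem_torsionBy_iff] at hw ⊢
  rw [← map_smul, hw, map_zero]

end Defs

/-! ### the restriction to a stable subgroup killed by `r`, as an `𝔽_r`-representation -/

section Restrict

variable {V : Type*} [AddCommGroup V] {G : Type*} [Group G] (r : ℕ)

/-- the restriction of `ρ` to a stable subgroup carrying a `ZMod r`-module structure -/
def restrictZMod (ρ : G →* Module.End ℤ V) (W : Submodule ℤ V) (hW : StableZ ρ W)
    [Module (ZMod r) W] : G →* Module.End (ZMod r) W where
  toFun g := (((ρ g).restrict (hW g)).toAddMonoidHom).toZModLinearMap r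
  map_one' := by
    refine LinearMap.ext fun w => Subtype.ext ?_
    show ρ 1 (w : V) = w
    rw [map_one, Module.End.one_apply]
  map_mul' g g' := by
    refine LinearMap.ext fun w => Subtype.ext ?_
    show ρ (g * g') (w : V) = ρ g (ρ g' (w : V))
    rw [map_mul, Module.End.mul_apply]

theorem coe_restrictZMod_apply (ρ : G →* Module.End ℤ V) (W : Submodule ℤ V) (hW : StableZ ρ W)
    [Module (ZMod r) W] (g : G) (w : W) :
    ((restrictZMod r ρ W hW g w : W) : V) = ρ g (w : V) := rfl

/-- `TwoEigZ` gives `TwoEig` on a stable subgroup which is a `ZMod r`-module -/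
theorem twoEig_restrictZMod [Fact r.Prime] {ρ : G →* Module.End ℤ V} {χ : G →* (ZMod r)ˣ}
    (h : TwoEigZ r ρ χ) (W : Submodule ℤ V) (hW : StableZ ρ W) [Module (ZMod r) W] :
    TwoEig (restrictZMod r ρ W hW) χ := by
  intro g
  obtain ⟨a, ha, m, hm⟩ := h g
  refine ⟨m, ?_⟩
  set c : ZMod r := ((χ g : (ZMod r)ˣ) : ZMod r) with hc
  have step : ∀ u : W,
      ((((restrictZMod r ρ W hW g - 1) * (restrictZMod r ρ W hW g - c • 1)) u : W) : V) =
        ((ρ g - 1) * (ρ g - a • 1)) (u : V) := by
    intro u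
    have h1 : (c • u : W) = a • u := by
      rw [← ha]
      exact Int.cast_smul_eq_zsmul (ZMod r) a u
    simp only [Module.End.mul_apply, LinearMap.sub_apply, LinearMap.smul_apply,
      Module.End.one_apply, map_sub, h1]
    simp only [Submodule.coe_sub, coe_restrictZMod_apply, Submodule.coe_smul, map_smul]
  generalize hN' : (restrictZMod r ρ W hW g - 1) * (restrictZMod r ρ W hW g - c • 1) = N'
    at step ⊢
  generalize hN : (ρ g - 1) * (ρ g - a • 1) = N at step hm ⊢
  have key : ∀ (j : ℕ) (u : W), (((N' ^ j) u : W) : V) = (N ^ j) (u : V) := by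
    intro j
    induction j with
    | zero => intro u; rw [pow_zero, pow_zero, Module.End.one_apply, Module.End.one_apply]
    | succ j ih =>
      intro u
      rw [pow_succ', pow_succ', Module.End.mul_apply, Module.End.mul_apply, step, ih]
  refine LinearMap.ext fun u => Subtype.ext ?_
  rw [key, hm, LinearMap.zero_apply, LinearMap.zero_apply, Submodule.coe_zero]

end Restrict

/-! ### the eigenline -/

section Eigenline

variable {V : Type*} [AddCommGroup V] {G : Type*} [Group G]

/-- a nontrivial abelian `r`-group has nontrivial `r`-torsion -/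
theorem exists_torsion_ne_zero (r : ℕ) (hV : ∀ v : V, ∃ k : ℕ, r ^ k • v = 0) [Nontrivial V] :
    ∃ w : V, w ≠ 0 ∧ r • w = 0 := by
  classical
  obtain ⟨v, hv⟩ := exists_ne (0 : V)
  have hex := hV v
  have hk0 : Nat.find hex ≠ 0 := by
    intro h0
    have := Nat.find_spec hex
    rw [h0, pow_zero, one_smul] at this
    exact hv this
  obtain ⟨j, hj⟩ := Nat.exists_eq_succ_of_ne_zero hk0
  refine ⟨r ^ j • v, ?_, ?_⟩
  · intro h0
    exact Nat.find_min hex (by rw [hj]; exact Nat.lt_succ_self j) h0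
  · have := Nat.find_spec hex
    rw [hj, pow_succ', mul_smul] at this
    exact this

/-- **The eigenline** in a finite abelian `r`-group under `TwoEigZ`. -/
theorem exists_eigenlineZ (r : ℕ) [Fact r.Prime] [Finite V] [Nontrivial V]
    (hV : ∀ v : V, ∃ k : ℕ, r ^ k • v = 0) (ρ : G →* Module.End ℤ V) (χ : G →* (ZMod r)ˣ)
    (h : TwoEigZ r ρ χ) :
    ∃ v : V, v ≠ 0 ∧ r • v = 0 ∧ ∃ ψ : G →* (ZMod r)ˣ, (ψ = 1 ∨ ψ = χ) ∧
      ∀ (g : G) (a : ℤ), (a : ZMod r) = ((ψ g : (ZMod r)ˣ) : ZMod r) → ρ g v = a • v := by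
  haveI : NeZero r := ⟨(Fact.out : r.Prime).ne_zero⟩
  set W : Submodule ℤ V := Submodule.torsionBy ℤ V (r : ℤ) with hWdef
  have hW : StableZ ρ W := stableZ_torsionBy ρ _
  have hkill : ∀ x : W, r • x = 0 := by
    intro x
    apply Subtype.ext
    have := (Submodule.mem_torsionBy_iff (R := ℤ) (M := V) (r : ℤ) (x : V)).mp x.2
    rw [Submodule.coe_smul_of_tower, Submodule.coe_zero, ← natCast_zsmul]
    exact this
  letI : Module (ZMod r) W := AddCommGroup.zmodModule hkill
  obtain ⟨w₀, hw₀, hrw₀⟩ := exists_torsion_ne_zero r hV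
  have hw₀W : w₀ ∈ W := by
    rw [hWdef, Submodule.mem_torsionBy_iff, natCast_zsmul]
    exact hrw₀
  haveI : Nontrivial W := ⟨⟨⟨w₀, hw₀W⟩, 0, fun h0 => hw₀ (congrArg Subtype.val h0)⟩⟩
  obtain ⟨v, hv0, ψ, hψ, hv⟩ :=
    exists_eigenline' (k := ZMod r) r (restrictZMod r ρ W hW) χ (twoEig_restrictZMod r h W hW)
  refine ⟨(v : V), fun h0 => hv0 (Subtype.ext h0), ?_, ψ, hψ, fun g a ha => ?_⟩
  · have := congrArg Subtype.val (hkill v)
    rwa [Submodule.coe_smul_of_tower, Submodule.coe_zero] at this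
  · have h1 := congrArg Subtype.val (hv g)
    rw [coe_restrictZMod_apply] at h1
    rw [h1, ← ha]
    have h2 : ((a : ZMod r) • v : W) = a • v := Int.cast_smul_eq_zsmul (ZMod r) a v
    rw [h2, Submodule.coe_smul]

end Eigenline

/-! ### quotients and subgroups -/

section Quotient

variable {V : Type*} [AddCommGroup V] {G : Type*} [Group G]

/-- the action on the quotient by a stable subgroup -/
def quotRepZ (ρ : G →* Module.End ℤ V) (L : Submodule ℤ V) (hL : StableZ ρ L) :
    G →* Module.End ℤ (V ⧸ L) where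
  toFun g := L.mapQ L (ρ g) (fun w hw => hL g w hw)
  map_one' := by
    refine LinearMap.ext fun x => ?_
    obtain ⟨v, rfl⟩ := L.mkQ_surjective x
    simp only [Submodule.mkQ_apply, Submodule.mapQ_apply, map_one, Module.End.one_apply]
  map_mul' g g' := by
    refine LinearMap.ext fun x => ?_
    obtain ⟨v, rfl⟩ := L.mkQ_surjective x
    simp only [Submodule.mkQ_apply, Submodule.mapQ_apply, map_mul, Module.End.mul_apply]

@[simp] theorem quotRepZ_mk (ρ : G →* Module.End ℤ V) (L : Submodule ℤ V) (hL : StableZ ρ L)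
    (g : G) (v : V) :
    quotRepZ ρ L hL g (Submodule.Quotient.mk v) = Submodule.Quotient.mk (ρ g v) := rfl

theorem twoEigZ_quotRepZ {r : ℕ} {ρ : G →* Module.End ℤ V} {χ : G →* (ZMod r)ˣ}
    (h : TwoEigZ r ρ χ) (L : Submodule ℤ V) (hL : StableZ ρ L) :
    TwoEigZ r (quotRepZ ρ L hL) χ := by
  intro g
  obtain ⟨a, ha, m, hm⟩ := h g
  refine ⟨a, ha, m, ?_⟩
  have step : ∀ u : V,
      ((quotRepZ ρ L hL g - 1) * (quotRepZ ρ L hL g - a • 1)) (Submodule.Quotient.mk u) =
        Submodule.Quotient.mk (((ρ g - 1) * (ρ g - a • 1)) u) := by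
    intro u
    simp only [Module.End.mul_apply, LinearMap.sub_apply, LinearMap.smul_apply,
      Module.End.one_apply, quotRepZ_mk, Submodule.Quotient.mk_sub, Submodule.Quotient.mk_smul,
      map_sub, map_smul]
  generalize hN' : (quotRepZ ρ L hL g - 1) * (quotRepZ ρ L hL g - a • 1) = N' at step ⊢
  generalize hN : (ρ g - 1) * (ρ g - a • 1) = N at step hm ⊢
  have key : ∀ (j : ℕ) (v : V),
      (N' ^ j) (Submodule.Quotient.mk v) = Submodule.Quotient.mk ((N ^ j) v) := by
    intro j
    induction j with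
    | zero => intro v; rw [pow_zero, pow_zero, Module.End.one_apply, Module.End.one_apply]
    | succ j ih =>
      intro v
      rw [pow_succ', pow_succ', Module.End.mul_apply, Module.End.mul_apply, ih, step]
  refine LinearMap.ext fun x => ?_
  obtain ⟨v, rfl⟩ := L.mkQ_surjective x
  rw [Submodule.mkQ_apply, key, hm, LinearMap.zero_apply, LinearMap.zero_apply,
    Submodule.Quotient.mk_zero]

/-- the action on a stable subgroup -/
def subRepZ (ρ : G →* Module.End ℤ V) (W : Submodule ℤ V) (hW : StableZ ρ W) :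
    G →* Module.End ℤ W where
  toFun g := (ρ g).restrict (hW g)
  map_one' := by
    refine LinearMap.ext fun w => Subtype.ext ?_
    show ρ 1 (w : V) = w
    rw [map_one, Module.End.one_apply]
  map_mul' g g' := by
    refine LinearMap.ext fun w => Subtype.ext ?_
    show ρ (g * g') (w : V) = ρ g (ρ g' (w : V))
    rw [map_mul, Module.End.mul_apply]

@[simp] theorem coe_subRepZ_apply (ρ : G →* Module.End ℤ V) (W : Submodule ℤ V)
    (hW : StableZ ρ W) (g : G) (w : W) : ((subRepZ ρ W hW g w : W) : V) = ρ g (w : V) := rfl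

theorem twoEigZ_subRepZ {r : ℕ} {ρ : G →* Module.End ℤ V} {χ : G →* (ZMod r)ˣ}
    (h : TwoEigZ r ρ χ) (W : Submodule ℤ V) (hW : StableZ ρ W) :
    TwoEigZ r (subRepZ ρ W hW) χ := by
  intro g
  obtain ⟨a, ha, m, hm⟩ := h g
  refine ⟨a, ha, m, ?_⟩
  have step : ∀ u : W,
      ((((subRepZ ρ W hW g - 1) * (subRepZ ρ W hW g - a • 1)) u : W) : V) =
        ((ρ g - 1) * (ρ g - a • 1)) (u : V) := by
    intro u
    simp only [Module.End.mul_apply, LinearMap.sub_apply, LinearMap.smul_apply,
      Module.End.one_apply, map_sub, Submodule.coe_sub, coe_subRepZ_apply, Submodule.coe_smul,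
      map_smul]
  generalize hN' : (subRepZ ρ W hW g - 1) * (subRepZ ρ W hW g - a • 1) = N' at step ⊢
  generalize hN : (ρ g - 1) * (ρ g - a • 1) = N at step hm ⊢
  have key : ∀ (j : ℕ) (u : W), (((N' ^ j) u : W) : V) = (N ^ j) (u : V) := by
    intro j
    induction j with
    | zero => intro u; rw [pow_zero, pow_zero, Module.End.one_apply, Module.End.one_apply]
    | succ j ih =>
      intro u
      rw [pow_succ', pow_succ', Module.End.mul_apply, Module.End.mul_apply, step, ih]
  refine LinearMap.ext fun u => Subtype.ext ?_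
  rw [key, hm, LinearMap.zero_apply, LinearMap.zero_apply, Submodule.coe_zero]

/-- the cardinality of the preimage of a subgroup of the quotient -/
theorem card_comap_mkQ (L : Submodule ℤ V) (q : Submodule ℤ (V ⧸ L)) :
    Nat.card (q.comap L.mkQ) = Nat.card q * Nat.card L := by
  set W := q.comap L.mkQ with hW
  have hLW : L ≤ W := by
    intro x hx
    rw [hW, Submodule.mem_comap, Submodule.mkQ_apply, (Submodule.Quotient.mk_eq_zero L).mpr hx]
    exact Submodule.zero_mem _
  set f : W →ₗ[ℤ] V ⧸ L := L.mkQ ∘ₗ W.subtype with hf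
  have hrange : LinearMap.range f = q := by
    rw [hf, LinearMap.range_comp, Submodule.range_subtype, hW,
      Submodule.map_comap_eq_of_surjective L.mkQ_surjective]
  have hker : LinearMap.ker f = L.comap W.subtype := by
    rw [hf, LinearMap.ker_comp, Submodule.ker_mkQ]
  have h1 := Submodule.card_eq_card_quotient_mul_card (LinearMap.ker f)
  have h2 : Nat.card (W ⧸ LinearMap.ker f) = Nat.card q := by
    rw [← hrange]
    exact Nat.card_congr f.quotKerEquivRange.toEquiv
  have h3 : Nat.card (LinearMap.ker f) = Nat.card L := by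
    rw [hker]
    exact Nat.card_congr (Submodule.comapSubtypeEquivOfLe hLW).toEquiv
  rw [h1, h2, h3, mul_comm]

end Quotient

/-! ### the flag -/

section Flag

variable {G : Type*} [Group G]

/-- a group of prime-power order is an `r`-group -/
theorem exists_pow_smul_eq_zero_of_card {V : Type*} [AddCommGroup V] {r d : ℕ}
    (hd : Nat.card V = r ^ d) (v : V) : ∃ k : ℕ, r ^ k • v = 0 :=
  ⟨d, by rw [← hd]; exact card_nsmul_eq_zero'⟩

/-- the subgroup generated by an element killed by the prime `r` has `r` elements -/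
theorem card_span_singleton {V : Type*} [AddCommGroup V] {r : ℕ} (hr : r.Prime) {v : V}
    (hv0 : v ≠ 0) (hrv : r • v = 0) : Nat.card (Submodule.span ℤ {v}) = r := by
  haveI : Fact r.Prime := ⟨hr⟩
  have h1 : addOrderOf v = r := addOrderOf_eq_prime hrv hv0
  rw [← h1, ← Nat.card_zmultiples]
  refine Nat.card_congr (Equiv.subtypeEquivRight fun x => ?_)
  rw [Submodule.mem_span_singleton, AddSubgroup.mem_zmultiples_iff]

/-- **The flag.**  Under `TwoEigZ` a finite abelian group `V` of order `r ^ d` has a complete flag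
`0 = F 0 ≤ F 1 ≤ … ≤ F d = V` of `G`-stable subgroups, `#(F i) = r ^ i`, such that `G` acts on
`F (i+1) / F i` through `1` or `χ`. -/
theorem exists_flagZ (r : ℕ) [Fact r.Prime] (χ : G →* (ZMod r)ˣ) :
    ∀ (d : ℕ) {V : Type*} [AddCommGroup V] [Finite V] (ρ : G →* Module.End ℤ V),
      TwoEigZ r ρ χ → Nat.card V = r ^ d →
      ∃ F : ℕ → Submodule ℤ V, F 0 = ⊥ ∧ F d = ⊤ ∧ (∀ i, StableZ ρ (F i)) ∧
        (∀ i, i < d → F i ≤ F (i + 1)) ∧ (∀ i, i ≤ d → Nat.card (F i) = r ^ i) ∧
        ∀ i, i < d → ∃ ψ : G →* (ZMod r)ˣ, (ψ = 1 ∨ ψ = χ) ∧ ActsBy r ρ ψ (F (i + 1)) (F i) := by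
  have hr : r.Prime := Fact.out
  intro d
  induction d with
  | zero =>
    intro V _ _ ρ _ hd
    rw [pow_zero] at hd
    haveI : Subsingleton V := (Nat.card_eq_one_iff_unique.mp hd).1
    have hbt : (⊥ : Submodule ℤ V) = ⊤ := Subsingleton.elim _ _
    refine ⟨fun _ => ⊥, rfl, hbt, fun _ => stableZ_bot ρ,
      fun i hi => absurd hi (Nat.not_lt_zero i), ?_, fun i hi => absurd hi (Nat.not_lt_zero i)⟩
    intro i hi
    rw [Nat.le_zero.mp hi, pow_zero]
    exact Nat.card_unique
  | succ d ih =>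
    intro V _ _ ρ h hd
    haveI : Nontrivial V := by
      rw [← Finite.one_lt_card_iff_nontrivial, hd]
      exact Nat.one_lt_pow (Nat.succ_ne_zero d) hr.one_lt
    obtain ⟨v, hv0, hrv, ψ₀, hψ₀, hv⟩ :=
      exists_eigenlineZ r (exists_pow_smul_eq_zero_of_card hd) ρ χ h
    set L : Submodule ℤ V := Submodule.span ℤ {v} with hLdef
    have hL : StableZ ρ L := by
      intro g w hw
      obtain ⟨b, rfl⟩ := Submodule.mem_span_singleton.mp hw
      obtain ⟨a, ha⟩ : ∃ a : ℤ, (a : ZMod r) = ((ψ₀ g : (ZMod r)ˣ) : ZMod r) :=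
        ZMod.intCast_surjective _
      rw [map_smul, hv g a ha]
      exact Submodule.smul_mem _ _
        (Submodule.smul_mem _ _ (Submodule.mem_span_singleton_self v))
    have hLcard : Nat.card L = r := card_span_singleton hr hv0 hrv
    have hquot : Nat.card (V ⧸ L) = r ^ d := by
      have h1 := Submodule.card_eq_card_quotient_mul_card L
      rw [hLcard, hd, pow_succ'] at h1
      exact (Nat.eq_of_mul_eq_mul_left hr.pos h1).symm
    haveI : Finite (V ⧸ L) := Finite.of_surjective L.mkQ L.mkQ_surjective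
    obtain ⟨F', hF0, hFd, hFst, hFmono, hFcard, hFgr⟩ :=
      ih (quotRepZ ρ L hL) (twoEigZ_quotRepZ h L hL) hquot
    refine ⟨fun i => Nat.casesOn i ⊥ (fun j => (F' j).comap L.mkQ), rfl, ?_, ?_, ?_, ?_, ?_⟩
    · change (F' d).comap L.mkQ = ⊤
      rw [hFd, Submodule.comap_top]
    · intro i
      cases i with
      | zero => exact stableZ_bot ρ
      | succ j =>
        intro g w hw
        change L.mkQ (ρ g w) ∈ F' j
        exact hFst j g _ hw
    · intro i hi
      cases i with
      | zero => exact bot_le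
      | succ j => exact Submodule.comap_mono (hFmono j (Nat.lt_of_succ_lt_succ hi))
    · intro i hi
      cases i with
      | zero =>
        change Nat.card (⊥ : Submodule ℤ V) = r ^ 0
        rw [pow_zero]
        exact Nat.card_unique
      | succ j =>
        change Nat.card ((F' j).comap L.mkQ) = r ^ (j + 1)
        rw [card_comap_mkQ, hFcard j (Nat.le_of_succ_le_succ hi), hLcard, pow_succ]
    · intro i hi
      cases i with
      | zero =>
        refine ⟨ψ₀, hψ₀, fun g a ha w hw => ?_⟩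
        change w ∈ (F' 0).comap L.mkQ at hw
        rw [hF0, Submodule.comap_bot, Submodule.ker_mkQ] at hw
        obtain ⟨b, rfl⟩ := Submodule.mem_span_singleton.mp hw
        rw [map_smul, hv g a ha, smul_comm, sub_self]
        exact Submodule.zero_mem _
      | succ j =>
        obtain ⟨ψ, hψ, hgr⟩ := hFgr j (Nat.lt_of_succ_lt_succ hi)
        refine ⟨ψ, hψ, fun g a ha w hw => ?_⟩
        change L.mkQ (ρ g w - a • w) ∈ F' j
        have := hgr g a ha (L.mkQ w) hw
        rw [map_sub, map_smul]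
        exact this

end Flag

/-! ### simple subquotients -/

section Simple

variable {V : Type*} [AddCommGroup V] {G : Type*} [Group G]

/-- **Simple subquotients have order `r` and character `1` or `χ`.** -/
theorem simple_subquotientZ (r : ℕ) [Fact r.Prime] [Finite V] {d : ℕ} (hd : Nat.card V = r ^ d)
    (ρ : G →* Module.End ℤ V) (χ : G →* (ZMod r)ˣ) (h : TwoEigZ r ρ χ) (W' W : Submodule ℤ V)
    (hW' : StableZ ρ W') (hW : StableZ ρ W) (hle : W' ≤ W) (hne : W' ≠ W)
    (hsimple : ∀ U : Submodule ℤ V, StableZ ρ U → W' ≤ U → U ≤ W → U = W' ∨ U = W) :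
    ∃ ψ : G →* (ZMod r)ˣ, (ψ = 1 ∨ ψ = χ) ∧ ActsBy r ρ ψ W W' ∧
      Nat.card W = r * Nat.card W' := by
  classical
  have hr : r.Prime := Fact.out
  obtain ⟨F, hF0, hFd, hFst, -, -, hFgr⟩ := exists_flagZ (G := G) r χ d ρ h hd
  set U : ℕ → Submodule ℤ V := fun i => (W ⊓ F i) ⊔ W' with hU
  have hUst : ∀ i, StableZ ρ (U i) := fun i => (hW.inf (hFst i)).sup hW'
  have hUle : ∀ i, U i ≤ W := fun i => sup_le inf_le_left hle
  have hUge : ∀ i, W' ≤ U i := fun i => le_sup_right
  have hU0 : U 0 = W' := by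
    change (W ⊓ F 0) ⊔ W' = W'
    rw [hF0, inf_bot_eq, bot_sup_eq]
  have hUd : U d = W := by
    change (W ⊓ F d) ⊔ W' = W
    rw [hFd, inf_top_eq, sup_eq_left.mpr hle]
  have hex : ∃ i, U i = W := ⟨_, hUd⟩
  have hi0 : Nat.find hex ≠ 0 := by
    intro h0
    have := Nat.find_spec hex
    rw [h0, hU0] at this
    exact hne this
  obtain ⟨j, hj⟩ := Nat.exists_eq_succ_of_ne_zero hi0
  have hj1 : U (j + 1) = W := by
    have := Nat.find_spec hex
    rwa [hj] at this
  have hjW' : U j = W' := by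
    rcases hsimple (U j) (hUst j) (hUge j) (hUle j) with h1 | h1
    · exact h1
    · exact absurd h1 (Nat.find_min hex (by rw [hj]; exact Nat.lt_succ_self j))
  have hjd : j < d := by
    have := Nat.find_min' hex hUd
    omega
  obtain ⟨ψ, hψ, hgr⟩ := hFgr j hjd
  have hact : ActsBy r ρ ψ W W' := by
    intro g a ha w hw
    rw [← hj1] at hw
    obtain ⟨x, hx, y, hy, rfl⟩ := Submodule.mem_sup.mp hw
    have h1 : ρ g x - a • x ∈ W' := by
      rw [← hjW']
      refine Submodule.mem_sup_left ⟨?_, hgr g a ha x hx.2⟩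
      exact Submodule.sub_mem _ (hW g x hx.1) (Submodule.smul_mem _ _ hx.1)
    have h2 : ρ g y - a • y ∈ W' :=
      Submodule.sub_mem _ (hW' g y hy) (Submodule.smul_mem _ _ hy)
    have h3 : ρ g (x + y) - a • (x + y) = (ρ g x - a • x) + (ρ g y - a • y) := by
      rw [map_add, smul_add]; abel
    rw [h3]
    exact Submodule.add_mem _ h1 h2
  refine ⟨ψ, hψ, hact, ?_⟩
  -- every subgroup between `W'` and `W` is stable
  have hbetween : ∀ U₁ : Submodule ℤ V, W' ≤ U₁ → U₁ ≤ W → StableZ ρ U₁ := by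
    intro U₁ h1 h2 g u hu
    obtain ⟨a, ha⟩ : ∃ a : ℤ, (a : ZMod r) = ((ψ g : (ZMod r)ˣ) : ZMod r) :=
      ZMod.intCast_surjective _
    have h3 := hact g a ha u (h2 hu)
    have h4 : ρ g u = (ρ g u - a • u) + a • u := by abel
    rw [h4]
    exact Submodule.add_mem _ (h1 h3) (Submodule.smul_mem _ _ hu)
  obtain ⟨w₀, hw₀W, hw₀W'⟩ : ∃ w₀ ∈ W, w₀ ∉ W' := by
    by_contra hcon
    apply hne
    apply le_antisymm hle
    intro w hw
    by_contra hw'
    exact hcon ⟨w, hw, hw'⟩
  have hspan_le : Submodule.span ℤ {w₀} ≤ W := (Submodule.span_singleton_le_iff_mem w₀ W).mpr hw₀W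
  have hU₁W : W' ⊔ Submodule.span ℤ {w₀} = W := by
    rcases hsimple _ (hbetween _ le_sup_left (sup_le hle hspan_le)) le_sup_left
      (sup_le hle hspan_le) with h1 | h1
    · exfalso
      apply hw₀W'
      rw [← h1]
      exact Submodule.mem_sup_right (Submodule.mem_span_singleton_self w₀)
    · exact h1
  -- `r • w₀ ∈ W'`
  have hrw₀ : r • w₀ ∈ W' := by
    have hspan_le' : Submodule.span ℤ {r • w₀} ≤ W :=
      (Submodule.span_singleton_le_iff_mem _ W).mpr (Submodule.smul_of_tower_mem W r hw₀W)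
    rcases hsimple _ (hbetween _ le_sup_left (sup_le hle hspan_le')) le_sup_left
      (sup_le hle hspan_le') with h1 | h1
    · rw [← h1]
      exact Submodule.mem_sup_right (Submodule.mem_span_singleton_self _)
    · exfalso
      apply hw₀W'
      have hmem : w₀ ∈ W' ⊔ Submodule.span ℤ {r • w₀} := by rw [h1]; exact hw₀W
      obtain ⟨w', hw', y, hy, hsum⟩ := Submodule.mem_sup.mp hmem
      obtain ⟨m, rfl⟩ := Submodule.mem_span_singleton.mp hy
      -- `(1 - m r) w₀ = w' ∈ W'`
      have hkey : ((1 : ℤ) - m * r) • w₀ ∈ W' := by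
        have : ((1 : ℤ) - m * r) • w₀ = w' := by
          rw [sub_smul, one_smul, mul_smul, natCast_zsmul]
          exact (eq_sub_of_add_eq hsum).symm
        rw [this]; exact hw'
      obtain ⟨k, hk⟩ := exists_pow_smul_eq_zero_of_card hd w₀
      -- `w₀ = s (1 - m r) w₀ + (m r)^k w₀`
      have hgeom : (1 : ℤ) = (∑ i ∈ Finset.range k, (m * r) ^ i) * (1 - m * r) + (m * r) ^ k := by
        rw [geom_sum_mul_neg]
        ring
      have hw₀eq : w₀ = (∑ i ∈ Finset.range k, (m * (r : ℤ)) ^ i) • (((1 : ℤ) - m * r) • w₀) +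
          ((m * (r : ℤ)) ^ k) • w₀ := by
        rw [← mul_smul, ← add_smul, ← hgeom, one_smul]
      have hzero : ((m * (r : ℤ)) ^ k) • w₀ = 0 := by
        rw [mul_pow, mul_smul, ← Nat.cast_pow, natCast_zsmul, hk, smul_zero]
      rw [hw₀eq, hzero, add_zero]
      exact Submodule.smul_mem _ _ hkey
  -- the cardinality
  have hmk0 : (Submodule.Quotient.mk w₀ : V ⧸ W') ≠ 0 := by
    rw [Ne, Submodule.Quotient.mk_eq_zero]
    exact hw₀W'
  have hmkr : r • (Submodule.Quotient.mk w₀ : V ⧸ W') = 0 := by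
    rw [← Submodule.Quotient.mk_smul, Submodule.Quotient.mk_eq_zero]
    exact hrw₀
  have hWeq : W = (Submodule.span ℤ {(Submodule.Quotient.mk w₀ : V ⧸ W')}).comap W'.mkQ := by
    apply le_antisymm
    · intro x hx
      rw [← hU₁W] at hx
      obtain ⟨w', hw', y, hy, rfl⟩ := Submodule.mem_sup.mp hx
      obtain ⟨b, rfl⟩ := Submodule.mem_span_singleton.mp hy
      rw [Submodule.mem_comap, map_add, Submodule.mkQ_apply, Submodule.mkQ_apply,
        (Submodule.Quotient.mk_eq_zero W').mpr hw', zero_add, Submodule.Quotient.mk_smul]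
      exact Submodule.smul_mem _ _ (Submodule.mem_span_singleton_self _)
    · intro x hx
      rw [Submodule.mem_comap, Submodule.mkQ_apply] at hx
      obtain ⟨b, hb⟩ := Submodule.mem_span_singleton.mp hx
      have h1 : x - b • w₀ ∈ W' := by
        rw [← Submodule.Quotient.mk_eq_zero, Submodule.Quotient.mk_sub,
          Submodule.Quotient.mk_smul, hb, sub_self]
      have h2 : x = (x - b • w₀) + b • w₀ := by abel
      rw [h2]
      exact Submodule.add_mem _ (hle h1) (Submodule.smul_mem _ _ hw₀W)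
  have hcard := card_comap_mkQ W' (Submodule.span ℤ {(Submodule.Quotient.mk w₀ : V ⧸ W')})
  rw [← hWeq, card_span_singleton hr hmk0 hmkr] at hcard
  exact hcard

end Simple

end Fermat.Agent.GZ.Const.Tors
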