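/-
GATE-Z / (CONST), file 4 (helper36): the Kolchin flag IN THE VOCABULARY OF `GZ/Dev`
(`StableSub G W`, `DistribMulAction G W`) — the input shape of `Dev.chi_le_prod_of_flag`.

* `actRep G W`          : `G →* Module.End ℤ W`, `σ ↦ (w ↦ σ • w)`;
* `exists_stableFlag`   : `#W = r ^ d`, `TwoEigZ r (actRep G W) χ` ⟹ a flag `F : ℕ → StableSub G W`,
                          `F 0 = ⊥`, `F d = ⊤`, monotone, `#(F i) = r ^ i`, with `G` acting on
                          `F (i+1) / F i` through `ψ_i ∈ {1, χ}`;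
* `card_piece`, `smul_piece` : each piece `↥(F (i+1)).U ⧸ ((F i).sub (F (i+1))).U` has `r` elements
                          and `σ • q = a • q` for every integer lift `a` of `ψ_i σ`.
-/
import Mathlib
import Fermat.Agent.GZ.Const.Tors
import Fermat.Agent.GZ.Dev.Flag

set_option autoImplicit false

namespace Fermat.Agent.GZ.Const.FlagDev

open Fermat.Agent.GZ.Const.Tors Fermat.Agent.GZ.Dev

variable (G : Type*) [Group G] (W : Type*) [AddCommGroup W] [DistribMulAction G W]

/-- the action as a representation on the `ℤ`-module `W` -/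
def actRep : G →* Module.End ℤ W := DistribMulAction.toModuleEnd ℤ W

@[simp] theorem actRep_apply (σ : G) (w : W) : actRep G W σ w = σ • w := rfl

variable {G W}

/-- a stable `ℤ`-submodule, as a `StableSub` -/
def stableSubOf (U : Submodule ℤ W) (hU : StableZ (actRep G W) U) : StableSub G W where
  U := U.toAddSubgroup
  smul_mem σ w hw := hU σ w hw

@[simp] theorem mem_stableSubOf (U : Submodule ℤ W) (hU : StableZ (actRep G W) U) (w : W) :
    w ∈ (stableSubOf U hU).U ↔ w ∈ U := Iff.rfl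

/-- **The Kolchin flag in `Dev` vocabulary.** -/
theorem exists_stableFlag [Finite W] (r : ℕ) [Fact r.Prime] (χ : G →* (ZMod r)ˣ) (d : ℕ)
    (hd : Nat.card W = r ^ d) (h : TwoEigZ r (actRep G W) χ) :
    ∃ F : ℕ → StableSub G W, (F 0).U = ⊥ ∧ (F d).U = ⊤ ∧
      (∀ i, i < d → (F i).U ≤ (F (i + 1)).U) ∧ (∀ i, i ≤ d → Nat.card (F i).U = r ^ i) ∧
      ∀ i, i < d → ∃ ψ : G →* (ZMod r)ˣ, (ψ = 1 ∨ ψ = χ) ∧
        ∀ (σ : G) (a : ℤ), (a : ZMod r) = ((ψ σ : (ZMod r)ˣ) : ZMod r) →
          ∀ w ∈ (F (i + 1)).U, σ • w - a • w ∈ (F i).U := by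
  obtain ⟨F, hF0, hFd, hFst, hFmono, hFcard, hFgr⟩ := exists_flagZ r χ d (actRep G W) h hd
  refine ⟨fun i => stableSubOf (F i) (hFst i), ?_, ?_, ?_, ?_, ?_⟩
  · show (F 0).toAddSubgroup = ⊥
    rw [hF0, Submodule.bot_toAddSubgroup]
  · show (F d).toAddSubgroup = ⊤
    rw [hFd, Submodule.top_toAddSubgroup]
  · intro i hi w hw
    exact hFmono i hi hw
  · intro i hi
    exact hFcard i hi
  · intro i hi
    obtain ⟨ψ, hψ, hact⟩ := hFgr i hi
    exact ⟨ψ, hψ, fun σ a ha w hw => hact σ a ha w hw⟩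

/-- the piece `S / T` of two stable subgroups `T ≤ S` with `#S = r · #T` has `r` elements -/
theorem card_piece [Finite W] (T S : StableSub G W) (hTS : T.U ≤ S.U) {r n : ℕ}
    (hT : Nat.card T.U = r ^ n) (hS : Nat.card S.U = r ^ (n + 1)) (hr : 0 < r) :
    Nat.card (↥S.U ⧸ (T.sub S).U) = r := by
  have h1 := AddSubgroup.card_eq_card_quotient_mul_card_addSubgroup (T.sub S).U
  have h2 : Nat.card (T.sub S).U = Nat.card T.U :=
    Nat.card_congr (AddSubgroup.addSubgroupOfEquivOfLe hTS).toEquiv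
  rw [hS, h2, hT, pow_succ'] at h1
  have hpos : 0 < r ^ n := pow_pos hr n
  have h3 : r * r ^ n = Nat.card (↥S.U ⧸ (T.sub S).U) * r ^ n := h1
  exact (Nat.eq_of_mul_eq_mul_right hpos h3).symm

/-- `G` acts on the piece `S / T` through the integer `a` -/
theorem smul_piece (T S : StableSub G W) (σ : G) (a : ℤ)
    (hact : ∀ w ∈ S.U, σ • w - a • w ∈ T.U) (q : ↥S.U ⧸ (T.sub S).U) : σ • q = a • q := by
  induction q using QuotientAddGroup.induction_on with
  | H w =>
    rw [StableSub.smul_mk, ← QuotientAddGroup.mk_zsmul, QuotientAddGroup.eq_iff_sub_mem]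
    show ((σ • w - a • w : ↥S.U) : W) ∈ T.U
    rw [AddSubgroup.coe_sub, StableSub.coe_smul, AddSubgroup.coe_zsmul]
    exact hact w w.2

end Fermat.Agent.GZ.Const.FlagDev
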