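/-
GATE-Z / (CONST), file 3 (helper36): `TwoEigZ` FROM EICHLER–SHIMURA + CHEBOTAREV.

`V` an abelian group with an action `gal : G_ℚ →* End V` of finite level and commuting operators
`T ℓ`.  If for the primes `ℓ ∉ B` (`B` finite, `r ∈ B`)

* (ES)  `τ² − T_ℓ τ + ℓ = 0` on `V` for every Frobenius lift `τ` at `ℓ`,
* (EIS) `T_ℓ − (ℓ + 1)` is nilpotent on `V`            (`V` is "Eisenstein"),

then `(σ − 1)(σ − a)` is nilpotent on `V` for EVERY `σ ∈ G_ℚ`, `a` a lift of the mod `r`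
cyclotomic character: `twoEigZ_of_es : TwoEigZ r gal (cyc r)`.

Consequences (`GZ/Const/Tors`): `exists_flag_of_es` (complete `G_ℚ`-stable flag with graded pieces
of order `r` and character `1` or `cyc r`) and `simple_subquotient_of_es`.
-/
import Mathlib
import Fermat.Agent.GZ.Const.Tors
import Fermat.Agent.GJ.FrobLiftMain
import Fermat.Agent.GJ.CycChar

set_option autoImplicit false
set_option linter.style.haveILetI false

open Polynomial

namespace Fermat.Agent.GZ.Const.OfES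

local notation "Qb" => AlgebraicClosure ℚ
local notation "GQ" => (AlgebraicClosure ℚ ≃ₐ[ℚ] AlgebraicClosure ℚ)

open Fermat.Agent.GZ.Const.Tors Fermat.Agent.GJ.CycChar

/-! ### algebra -/

section Algebra

variable {R : Type*} [Ring R]

/-- `(F − 1)(F − ℓ)` nilpotent ⟹ `(F^j − 1)(F^j − ℓ^j)` nilpotent -/
theorem isNilpotent_pow_sub_of_isNilpotent (F : R) (ℓ : ℤ)
    (h : IsNilpotent ((F - 1) * (F - ℓ • 1))) (j : ℕ) :
    IsNilpotent ((F ^ j - 1) * (F ^ j - (ℓ ^ j) • 1)) := by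
  -- everything is a polynomial in `F`
  set P₀ : ℤ[X] := (X - 1) * (X - C ℓ) with hP₀
  set P : ℤ[X] := (X ^ j - 1) * (X ^ j - C (ℓ ^ j)) with hP
  have hdvd : P₀ ∣ P := by
    rw [hP₀, hP]
    refine mul_dvd_mul ?_ ?_
    · have := sub_dvd_pow_sub_pow (X : ℤ[X]) 1 j
      rwa [one_pow] at this
    · have := sub_dvd_pow_sub_pow (X : ℤ[X]) (C ℓ) j
      rwa [← C_pow] at this
  obtain ⟨Q, hQ⟩ := hdvd
  have e₀ : aeval F P₀ = (F - 1) * (F - ℓ • 1) := by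
    rw [hP₀, map_mul, map_sub, map_sub, aeval_X, map_one, aeval_C, algebraMap_int_eq,
      eq_intCast, zsmul_eq_mul, mul_one]
  have e : aeval F P = (F ^ j - 1) * (F ^ j - (ℓ ^ j) • 1) := by
    rw [hP, map_mul, map_sub, map_sub, map_pow, aeval_X, map_one, aeval_C, algebraMap_int_eq,
      eq_intCast, zsmul_eq_mul, mul_one]
  rw [← e, hQ, map_mul, e₀]
  refine Commute.isNilpotent_mul_right ?_ h
  rw [← e₀]
  show aeval F P₀ * aeval F Q = aeval F Q * aeval F P₀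
  rw [← map_mul, ← map_mul, mul_comm]

/-- the Eichler–Shimura relation with an Eisenstein `T` makes `(F − 1)(F − ℓ)` nilpotent -/
theorem isNilpotent_of_es (F T : R) (ℓ : ℤ) (hcomm : Commute T F)
    (hes : F * F - T * F + ℓ • 1 = 0) (hN : IsNilpotent (T - (ℓ + 1) • 1)) :
    IsNilpotent ((F - 1) * (F - ℓ • 1)) := by
  set N : R := T - (ℓ + 1) • 1 with hNdef
  have hNF : Commute N F := by
    rw [hNdef]
    refine Commute.sub_left hcomm ?_
    rw [zsmul_eq_mul, mul_one]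
    exact Int.cast_commute _ _
  have hkey : (F - 1) * (F - ℓ • 1) = N * F := by
    have h1 : T = N + (ℓ + 1) • 1 := by rw [hNdef]; abel
    have h2 : F * F = T * F - ℓ • 1 := by
      have := hes
      rw [sub_add_eq_add_sub, sub_eq_zero] at this
      rw [← this]; abel
    rw [h1] at h2
    simp only [zsmul_eq_mul, mul_one, Int.cast_add, Int.cast_one] at h2 ⊢
    have h3 : (ℓ : R) * F = F * ℓ := (Int.cast_commute ℓ F)
    calc (F - 1) * (F - (ℓ : R)) = F * F - F * ℓ - F + ℓ := by noncomm_ring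
      _ = (N + ((ℓ : R) + 1)) * F - ℓ - F * ℓ - F + ℓ := by rw [h2]
      _ = N * F + (ℓ : R) * F - F * ℓ := by noncomm_ring
      _ = N * F := by rw [h3]; abel
  rw [hkey]
  exact Commute.isNilpotent_mul_right hNF hN

end Algebra

/-! ### finite level of a product -/

theorem finiteLevel_prod {M M' : Type} [Monoid M] [Monoid M']
    (ρ : GQ →* M) (ρ' : GQ →* M') (h : GaloisFactorsThroughFiniteLevel ρ)
    (h' : GaloisFactorsThroughFiniteLevel ρ') :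
    GaloisFactorsThroughFiniteLevel (ρ.prod ρ') := by
  obtain ⟨L, hL, h1⟩ := h
  obtain ⟨L', hL', h1'⟩ := h'
  have : FiniteDimensional ℚ L := hL
  have : FiniteDimensional ℚ L' := hL'
  refine ⟨L ⊔ L', IntermediateField.finiteDimensional_sup L L', fun σ hσ => ?_⟩
  rw [MonoidHom.prod_apply, Prod.mk_eq_one]
  exact ⟨h1 σ fun x hx => hσ x ((le_sup_left : L ≤ L ⊔ L') hx),
    h1' σ fun x hx => hσ x ((le_sup_right : L' ≤ L ⊔ L') hx)⟩

/-! ### the main theorem -/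

section Main

variable {V : Type} [AddCommGroup V] (r : ℕ) [Fact r.Prime]

/-- **`TwoEigZ` from Eichler–Shimura and Chebotarev.** -/
theorem twoEigZ_of_es (gal : GQ →* Module.End ℤ V) (hlev : GaloisFactorsThroughFiniteLevel gal)
    (T : ℕ → Module.End ℤ V) (B : Finset ℕ) (hrB : r ∈ B)
    (hcomm : ∀ ℓ : ℕ, ℓ.Prime → ℓ ∉ B → ∀ σ : GQ, Commute (T ℓ) (gal σ))
    (hes : ∀ ℓ : ℕ, ℓ.Prime → ℓ ∉ B → ∀ A : ValuationSubring Qb, A.LiesOverPrime ℓ →
      ∀ τ : GQ, A.IsFrobeniusAt τ ℓ → gal τ * gal τ - T ℓ * gal τ + (ℓ : ℤ) • 1 = 0)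
    (heis : ∀ ℓ : ℕ, ℓ.Prime → ℓ ∉ B → IsNilpotent (T ℓ - ((ℓ : ℤ) + 1) • 1)) :
    TwoEigZ r gal (cyc r) := by
  intro g
  obtain ⟨ℓ, A, τ, j, hℓ, hℓB, hA, hτ, hρ⟩ :=
    Fermat.Agent.GJ.FrobLift.exists_isFrobeniusAt_pow' (gal.prod (cyc r))
      (finiteLevel_prod gal (cyc r) hlev (cyc_finiteLevel r)) B g
  rw [MonoidHom.prod_apply, MonoidHom.prod_apply, Prod.pow_mk, Prod.mk.injEq] at hρ
  obtain ⟨hg1, hg2⟩ := hρ
  have hℓr : ℓ ≠ r := fun h => hℓB (h ▸ hrB)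
  refine ⟨(ℓ : ℤ) ^ j, ?_, ?_⟩
  · rw [hg2, Units.val_pow_eq_pow_val, cyc_frob hℓ hℓr hA hτ]
    push_cast
    rfl
  · rw [hg1]
    exact isNilpotent_pow_sub_of_isNilpotent (gal τ) (ℓ : ℤ)
      (isNilpotent_of_es (gal τ) (T ℓ) (ℓ : ℤ) (hcomm ℓ hℓ hℓB τ) (hes ℓ hℓ hℓB A hA τ hτ)
        (heis ℓ hℓ hℓB)) j

variable [Finite V]

/-- **(CONST), abstract form**: the complete Galois-stable flag of an Eisenstein module, with graded
pieces of order `r` and character `1` or `cyc r`. -/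
theorem exists_flag_of_es (gal : GQ →* Module.End ℤ V) (hlev : GaloisFactorsThroughFiniteLevel gal)
    (T : ℕ → Module.End ℤ V) (B : Finset ℕ) (hrB : r ∈ B)
    (hcomm : ∀ ℓ : ℕ, ℓ.Prime → ℓ ∉ B → ∀ σ : GQ, Commute (T ℓ) (gal σ))
    (hes : ∀ ℓ : ℕ, ℓ.Prime → ℓ ∉ B → ∀ A : ValuationSubring Qb, A.LiesOverPrime ℓ →
      ∀ τ : GQ, A.IsFrobeniusAt τ ℓ → gal τ * gal τ - T ℓ * gal τ + (ℓ : ℤ) • 1 = 0)
    (heis : ∀ ℓ : ℕ, ℓ.Prime → ℓ ∉ B → IsNilpotent (T ℓ - ((ℓ : ℤ) + 1) • 1))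
    {d : ℕ} (hd : Nat.card V = r ^ d) :
    ∃ F : ℕ → Submodule ℤ V, F 0 = ⊥ ∧ F d = ⊤ ∧ (∀ i, StableZ gal (F i)) ∧
      (∀ i, i < d → F i ≤ F (i + 1)) ∧ (∀ i, i ≤ d → Nat.card (F i) = r ^ i) ∧
      ∀ i, i < d → ∃ ψ : GQ →* (ZMod r)ˣ, (ψ = 1 ∨ ψ = cyc r) ∧
        ActsBy r gal ψ (F (i + 1)) (F i) :=
  exists_flagZ r (cyc r) d gal (twoEigZ_of_es r gal hlev T B hrB hcomm hes heis) hd

end Main

end Fermat.Agent.GZ.Const.OfES
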