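/-
GATE-Z / (CONST), file 5 (helper36): **THE INSTANCE** — the Eisenstein part
`V_k = eisPart p S r k ≤ J₀(p)[r^k]` of `GZ/F/Pin.lean` (helper20) is a finite `G_ℚ`-stable,
Hecke-stable subgroup, and it carries a complete `G_ℚ`-stable flag whose graded pieces have order
`r` and character `1` or `cyc r` (= every constituent is `ℤ/r` or `μ_r`).

Inputs (all on main, binder-free): Eichler–Shimura on `J₀(p)[r^k]`, Hecke–Galois and Hecke–Hecke
commutation on torsion, finite level (`GZ/HeckeTors`), the torsion count (`GH/TorsionCount`),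
Chebotarev (`GJ/FrobLiftMain`) and the finite Kolchin lemma (`GZ/Const/{Kolchin,Tors,OfES}`).
-/
import Fermat.Agent.GZ.F.Pin
import Fermat.Agent.GZ.HeckeTors.Comm
import Fermat.Agent.GZ.Const.OfES
import Fermat.Agent.GZ.Const.FlagDev

set_option autoImplicit false
set_option linter.unusedSectionVars false

noncomputable section

namespace Fermat.Agent.GZ.Const.EisPart

open AlgebraicCurve ModularCurve
open Fermat.Agent.GZ.F Fermat.Agent.GZ.HeckeTors Fermat.Agent.GZ.Dev
open Fermat.Agent.GZ.Const.Tors Fermat.Agent.GZ.Const.OfES Fermat.Agent.GZ.Const.FlagDev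
open Fermat.Agent.GJ.CycChar

local notation "Qb" => AlgebraicClosure ℚ
local notation "GQ" => (AlgebraicClosure ℚ ≃ₐ[ℚ] AlgebraicClosure ℚ)

variable (p : ℕ) [NeZero p] (hp : p.Prime)

/-! ### torsion bookkeeping -/

section Tors

variable {p}

theorem nsmul_Tq_eq_zero {m : ℕ} (q : Nat.Primes) {x : JZero p} (hx : m • x = 0) :
    m • heckeOperatorBar p q x = 0 := by
  rw [← map_nsmul, hx, map_zero]

theorem nsmul_eisOp_eq_zero {m : ℕ} (q : Nat.Primes) {x : JZero p} (hx : m • x = 0) :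
    m • eisOp p q x = 0 := by
  rw [← map_nsmul, hx, map_zero]

theorem nsmul_eisProd_eq_zero {m : ℕ} (l : List Nat.Primes) {x : JZero p} (hx : m • x = 0) :
    m • eisProd p l x = 0 := by
  rw [← map_nsmul, hx, map_zero]

theorem eisProd_cons (q : Nat.Primes) (l : List Nat.Primes) (x : JZero p) :
    eisProd p (q :: l) x = eisOp p q (eisProd p l x) := by
  unfold eisProd
  rw [List.map_cons, List.prod_cons, Module.End.mul_apply]

theorem eisProd_nil (x : JZero p) : eisProd p [] x = x := by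
  unfold eisProd
  rw [List.map_nil, List.prod_nil, Module.End.one_apply]

end Tors

/-! ### Galois stability -/

section Galois

variable {p}

include hp

theorem not_dvd_of_ne {q : Nat.Primes} (hq : (q : ℕ) ≠ p) : ¬ (q : ℕ) ∣ p := fun h =>
  hq ((Nat.prime_dvd_prime_iff_eq q.2 hp).mp h)

/-- `T_q` commutes with `σ` on `m`-torsion -/
theorem Tq_smul {m : ℕ} (hm : m ≠ 0) {q : Nat.Primes} (hq : (q : ℕ) ≠ p) (σ : GQ) {x : JZero p}
    (hx : m • x = 0) : heckeOperatorBar p q (σ • x) = σ • heckeOperatorBar p q x := by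
  haveI : NeZero m := ⟨hm⟩
  have hx' : (m : ℤ) • x = 0 := by rw [natCast_zsmul]; exact hx
  exact hecke_smul_tors p m q.2 (not_dvd_of_ne hp hq) σ x hx'

/-- `T_q − (q+1)` commutes with `σ` on `m`-torsion -/
theorem eisOp_smul {m : ℕ} (hm : m ≠ 0) {q : Nat.Primes} (hq : (q : ℕ) ≠ p) (σ : GQ)
    {x : JZero p} (hx : m • x = 0) : eisOp p q (σ • x) = σ • eisOp p q x := by
  rw [eisOp_apply, eisOp_apply, Tq_smul hp hm hq σ hx, smul_sub, smul_comm σ]

/-- products of Eisenstein operators commute with `σ` on `m`-torsion -/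
theorem eisProd_smul {m : ℕ} (hm : m ≠ 0) {S : Finset ℕ} (σ : GQ) :
    ∀ (l : List Nat.Primes), GoodList p S l → ∀ {x : JZero p}, m • x = 0 →
      eisProd p l (σ • x) = σ • eisProd p l x := by
  intro l
  induction l with
  | nil =>
    intro _ x _
    rw [eisProd_nil, eisProd_nil]
  | cons q l ih =>
    intro hgood x hx
    have hq : (q : ℕ) ≠ p := (hgood q (List.mem_cons_self)).2
    have hl : GoodList p S l := fun q' hq' => hgood q' (List.mem_cons_of_mem q hq')
    rw [eisProd_cons, eisProd_cons, ih hl hx,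
      eisOp_smul hp hm hq σ (nsmul_eisProd_eq_zero l hx)]

/-- **the Eisenstein part is Galois-stable** -/
theorem smul_mem_eisPart {S : Finset ℕ} {r k : ℕ} (hr : r ≠ 0) (σ : GQ) {x : JZero p}
    (hx : x ∈ eisPart p S r k) : σ • x ∈ eisPart p S r k := by
  obtain ⟨h1, N, hN⟩ := hx
  refine ⟨by rw [smul_comm, h1]; exact smul_zero (A := JZero p) σ, N, fun l hl hgood => ?_⟩
  rw [eisProd_smul hp (pow_ne_zero k hr) σ l hgood h1, hN l hl hgood]
  exact smul_zero (A := JZero p) σ

end Galois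

/-! ### Hecke stability -/

section Hecke

variable {p}

include hp

/-- `T_{q'}` commutes with `T_q − (q+1)` on torsion -/
theorem eisOp_Tq {m : ℕ} (hm : 0 < m) {q q' : Nat.Primes} (hq : (q : ℕ) ≠ p)
    (hq' : (q' : ℕ) ≠ p) {x : JZero p} (hx : m • x = 0) :
    eisOp p q (heckeOperatorBar p q' x) = heckeOperatorBar p q' (eisOp p q x) := by
  have hfin : IsOfFinAddOrder x := isOfFinAddOrder_iff_nsmul_eq_zero.mpr ⟨m, hm, hx⟩
  have h := hecke_comm_tors p q.2 (not_dvd_of_ne hp hq) q'.2 (not_dvd_of_ne hp hq') x hfin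
  rw [eisOp_apply, eisOp_apply, map_sub, map_zsmul]
  exact congrArg (· - _) h

theorem eisProd_Tq {m : ℕ} (hm : 0 < m) {S : Finset ℕ} {q' : Nat.Primes} (hq' : (q' : ℕ) ≠ p) :
    ∀ (l : List Nat.Primes), GoodList p S l → ∀ {x : JZero p}, m • x = 0 →
      eisProd p l (heckeOperatorBar p q' x) = heckeOperatorBar p q' (eisProd p l x) := by
  intro l
  induction l with
  | nil =>
    intro _ x _
    rw [eisProd_nil, eisProd_nil]
  | cons q l ih =>
    intro hgood x hx
    have hq : (q : ℕ) ≠ p := (hgood q (List.mem_cons_self)).2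
    have hl : GoodList p S l := fun q'' hq'' => hgood q'' (List.mem_cons_of_mem q hq'')
    rw [eisProd_cons, eisProd_cons, ih hl hx,
      eisOp_Tq hp hm hq hq' (nsmul_eisProd_eq_zero l hx)]

/-- **the Eisenstein part is Hecke-stable** -/
theorem Tq_mem_eisPart {S : Finset ℕ} {r k : ℕ} (hr : 0 < r) {q' : Nat.Primes}
    (hq' : (q' : ℕ) ≠ p) {x : JZero p} (hx : x ∈ eisPart p S r k) :
    heckeOperatorBar p q' x ∈ eisPart p S r k := by
  obtain ⟨h1, N, hN⟩ := hx
  refine ⟨nsmul_Tq_eq_zero q' h1, N, fun l hl hgood => ?_⟩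
  rw [eisProd_Tq hp (pow_pos hr k) hq' l hgood h1, hN l hl hgood, map_zero]

end Hecke

/-! ### the module `V_k` -/

section Module

variable (S : Finset ℕ) (r k : ℕ) (hr : r ≠ 0)

/-- the Eisenstein part as a `G_ℚ`-stable subgroup (vocabulary of `GZ/Dev/Flag`) -/
def eisSub : StableSub GQ (JZero p) where
  U := eisPart p S r k
  smul_mem σ _ hw := smul_mem_eisPart hp hr σ hw

theorem eisSub_U : (eisSub p hp S r k hr).U = eisPart p S r k := rfl

/-- `J₀(p)[m]` is finite -/
theorem finite_torsion (m : ℕ) (hm : m ≠ 0) :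
    Finite (Pic0.torsion (AlgebraicClosure ℚ) (modularFunctionFieldBar p) m) := by
  apply Nat.finite_of_card_ne_zero
  rw [Fermat.Agent.GH.TorsionCount.natCard_torsion_JZero p m hm]
  exact pow_ne_zero _ hm

instance finite_eisSub : Finite ↥(eisSub p hp S r k hr).U := by
  haveI := finite_torsion p (r ^ k) (pow_ne_zero k hr)
  refine Finite.of_injective
    (fun x : ↥(eisSub p hp S r k hr).U =>
      (⟨(x : JZero p), by
        rw [Pic0.mem_torsion, natCast_zsmul]
        exact x.2.1⟩ : Pic0.torsion (AlgebraicClosure ℚ) (modularFunctionFieldBar p) (r ^ k)))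
    (fun x y h => Subtype.ext (by
      have := congrArg (fun t : Pic0.torsion (AlgebraicClosure ℚ) (modularFunctionFieldBar p)
        (r ^ k) => (t : JZero p)) h
      exact this))

theorem pow_smul_eq_zero (v : ↥(eisSub p hp S r k hr).U) : r ^ k • v = 0 :=
  Subtype.ext (by rw [AddSubgroup.coe_nsmul]; exact v.2.1)

/-- the order of `V_k` is a power of `r` -/
theorem exists_card_eq_pow [Fact r.Prime] :
    ∃ d : ℕ, Nat.card ↥(eisSub p hp S r k hr).U = r ^ d := by
  have h : IsPGroup r (Multiplicative ↥(eisSub p hp S r k hr).U) := by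
    intro g
    refine ⟨k, ?_⟩
    have := pow_smul_eq_zero p hp S r k hr (Multiplicative.toAdd g)
    exact congrArg Multiplicative.ofAdd this
  obtain ⟨d, hd⟩ := (IsPGroup.iff_card (p := r)).mp h
  exact ⟨d, by rw [← hd]; rfl⟩

/-- the restriction of `T_{q'}` to `V_k` -/
def Tres (q' : Nat.Primes) (hq' : (q' : ℕ) ≠ p) : Module.End ℤ ↥(eisSub p hp S r k hr).U :=
  AddMonoidHom.toIntLinearMap
    { toFun := fun x => ⟨heckeOperatorBar p q' (x : JZero p),
        Tq_mem_eisPart hp (Nat.pos_of_ne_zero hr) hq' x.2⟩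
      map_zero' := Subtype.ext (map_zero _)
      map_add' := fun x y => Subtype.ext (map_add _ _ _) }

@[simp] theorem coe_Tres (q' : Nat.Primes) (hq' : (q' : ℕ) ≠ p)
    (x : ↥(eisSub p hp S r k hr).U) :
    ((Tres p hp S r k hr q' hq' x : ↥(eisSub p hp S r k hr).U) : JZero p) =
      heckeOperatorBar p q' (x : JZero p) := rfl

open Classical in
/-- the family of Hecke operators on `V_k` (junk at `ℓ = p` and at non-primes) -/
def TFam (ℓ : ℕ) : Module.End ℤ ↥(eisSub p hp S r k hr).U :=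
  if h : ℓ.Prime ∧ ℓ ≠ p then Tres p hp S r k hr ⟨ℓ, h.1⟩ h.2 else 0

theorem TFam_of_prime {ℓ : ℕ} (hℓ : ℓ.Prime) (hℓp : ℓ ≠ p) :
    TFam p hp S r k hr ℓ = Tres p hp S r k hr ⟨ℓ, hℓ⟩ hℓp := by
  unfold TFam
  rw [dif_pos ⟨hℓ, hℓp⟩]

end Module

/-! ### the main theorems -/

section Main

variable (S : Finset ℕ) (r k : ℕ) (hr : r ≠ 0) [hrp : Fact r.Prime]

/-- **`(σ − 1)(σ − χ_r(σ))` is nilpotent on the Eisenstein part, for every `σ ∈ G_ℚ`.** -/
theorem twoEigZ_eisPart :
    TwoEigZ r (actRep GQ ↥(eisSub p hp S r k hr).U) (cyc r) := by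
  have hrk : r ^ k ≠ 0 := pow_ne_zero k hr
  haveI : NeZero (r ^ k) := ⟨hrk⟩
  have htors : ∀ v : ↥(eisSub p hp S r k hr).U, ((r ^ k : ℕ) : ℤ) • (v : JZero p) = 0 := by
    intro v
    rw [natCast_zsmul]
    exact v.2.1
  refine twoEigZ_of_es r (actRep GQ ↥(eisSub p hp S r k hr).U) ?_ (TFam p hp S r k hr)
    (insert p (insert r S)) (Finset.mem_insert_of_mem (Finset.mem_insert_self _ _)) ?_ ?_ ?_
  · -- finite level
    exact Fermat.Agent.GJ.FiniteLevel.factorsThroughFiniteLevel_of_pointwise (k := ℤ) _ (fun v =>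
      (hasLevel_tors p (r ^ k) (v : JZero p) (htors v)).mono (fun σ h => Subtype.ext h))
  · -- Hecke–Galois commutation
    intro ℓ hℓ hℓB σ
    have hℓp : ℓ ≠ p := fun h => hℓB (h ▸ Finset.mem_insert_self _ _)
    rw [TFam_of_prime p hp S r k hr hℓ hℓp]
    refine LinearMap.ext fun v => Subtype.ext ?_
    show heckeOperatorBar p ⟨ℓ, hℓ⟩ (σ • (v : JZero p)) =
      σ • heckeOperatorBar p ⟨ℓ, hℓ⟩ (v : JZero p)
    exact Tq_smul hp hrk (q := ⟨ℓ, hℓ⟩) hℓp σ v.2.1
  · -- Eichler–Shimura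
    intro ℓ hℓ hℓB A hA τ hτ
    have hℓp : ℓ ≠ p := fun h => hℓB (h ▸ Finset.mem_insert_self _ _)
    have hℓr : ℓ ≠ r := fun h =>
      hℓB (h ▸ Finset.mem_insert_of_mem (Finset.mem_insert_self _ _))
    rw [TFam_of_prime p hp S r k hr hℓ hℓp]
    refine LinearMap.ext fun v => Subtype.ext ?_
    have hndvd : ¬ ℓ ∣ p * r ^ k := by
      intro h
      rcases (Nat.Prime.dvd_mul hℓ).mp h with h1 | h1
      · exact hℓp ((Nat.prime_dvd_prime_iff_eq hℓ hp).mp h1)
      · exact hℓr ((Nat.prime_dvd_prime_iff_eq hℓ hrp.out).mp (hℓ.dvd_of_dvd_pow h1))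
    have h := es_jzero p (r ^ k) hℓ hndvd A hA τ hτ (v : JZero p) (htors v)
    show τ • τ • (v : JZero p) - heckeOperatorBar p ⟨ℓ, hℓ⟩ (τ • (v : JZero p)) +
      (ℓ : ℤ) • (v : JZero p) = 0
    rw [natCast_zsmul]
    exact h
  · -- Eisenstein nilpotency
    intro ℓ hℓ hℓB
    have hℓp : ℓ ≠ p := fun h => hℓB (h ▸ Finset.mem_insert_self _ _)
    have hℓS : ℓ ∉ S := fun h =>
      hℓB (Finset.mem_insert_of_mem (Finset.mem_insert_of_mem h))
    rw [TFam_of_prime p hp S r k hr hℓ hℓp]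
    set q : Nat.Primes := ⟨ℓ, hℓ⟩ with hq
    set E : Module.End ℤ ↥(eisSub p hp S r k hr).U :=
      Tres p hp S r k hr q hℓp - ((ℓ : ℤ) + 1) • 1 with hE
    have hE1 : ∀ v : ↥(eisSub p hp S r k hr).U, ((E v : ↥(eisSub p hp S r k hr).U) : JZero p) =
        eisOp p q (v : JZero p) := by
      intro v
      rw [eisOp_apply]
      rfl
    have hEn : ∀ (n : ℕ) (v : ↥(eisSub p hp S r k hr).U),
        (((E ^ n) v : ↥(eisSub p hp S r k hr).U) : JZero p) = ((eisOp p q) ^ n) (v : JZero p) := by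
      intro n
      induction n with
      | zero => intro v; rw [pow_zero, pow_zero, Module.End.one_apply, Module.End.one_apply]
      | succ n ih =>
        intro v
        rw [pow_succ', pow_succ', Module.End.mul_apply, Module.End.mul_apply, hE1, ih]
    have hv : ∀ v : ↥(eisSub p hp S r k hr).U, ∃ n : ℕ, (E ^ n) v = 0 := by
      intro v
      obtain ⟨-, N, hN⟩ := v.2
      refine ⟨N, Subtype.ext ?_⟩
      rw [hEn]
      have h1 := hN (List.replicate N q) List.length_replicate (fun q' hq' => by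
        rw [List.eq_of_mem_replicate hq']
        exact ⟨hℓS, hℓp⟩)
      unfold eisProd at h1
      rw [List.map_replicate, List.prod_replicate] at h1
      exact h1
    classical
    choose n hn using hv
    haveI := Fintype.ofFinite ↥(eisSub p hp S r k hr).U
    refine ⟨∑ v, n v, LinearMap.ext fun v => ?_⟩
    have hle : n v ≤ ∑ w, n w :=
      Finset.single_le_sum (f := n) (fun _ _ => Nat.zero_le _) (Finset.mem_univ v)
    obtain ⟨c, hc⟩ := Nat.exists_eq_add_of_le hle
    rw [hc, add_comm, pow_add, Module.End.mul_apply, hn v, map_zero, LinearMap.zero_apply]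

/-- **(CONST), instance form.**  The Eisenstein part `V_k ≤ J₀(p)[r^k]` has order `r ^ d` and a
complete `G_ℚ`-stable flag `0 = F 0 ≤ … ≤ F d = V_k` with `#(F i) = r ^ i` such that `G_ℚ` acts on
`F (i+1) / F i` through `1` or through the mod `r` cyclotomic character: every constituent is `ℤ/r`
or `μ_r`.  (Input shape of `Dev.chi_le_prod_of_flag`.) -/
theorem exists_flag_eisPart :
    ∃ d : ℕ, Nat.card ↥(eisSub p hp S r k hr).U = r ^ d ∧
      ∃ F : ℕ → StableSub GQ ↥(eisSub p hp S r k hr).U, (F 0).U = ⊥ ∧ (F d).U = ⊤ ∧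
        (∀ i, i < d → (F i).U ≤ (F (i + 1)).U) ∧ (∀ i, i ≤ d → Nat.card (F i).U = r ^ i) ∧
        ∀ i, i < d → ∃ ψ : GQ →* (ZMod r)ˣ, (ψ = 1 ∨ ψ = cyc r) ∧
          ∀ (σ : GQ) (a : ℤ), (a : ZMod r) = ((ψ σ : (ZMod r)ˣ) : ZMod r) →
            ∀ w ∈ (F (i + 1)).U, σ • w - a • w ∈ (F i).U := by
  obtain ⟨d, hd⟩ := exists_card_eq_pow p hp S r k hr
  exact ⟨d, hd, exists_stableFlag r (cyc r) d hd (twoEigZ_eisPart p hp S r k hr)⟩

end Main

end Fermat.Agent.GZ.Const.EisPart
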