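/-
GATE-Z / (CONST), file 6 (helper36): **the pieces of the Kolchin flag, in the shapes consumed by the
piece arithmetic** (`GZ/Dev/Arith/Hyp`, `GZ/LocR/PieceType`, ARITH-MU).

Generic part (`G` any group, `P` a finite abelian group of prime order `r` on which `G` acts through a
character `ψ : G →* (ZMod r)ˣ`, spelled `ActsThrough r ψ P`):
* `smul_eq_of_eq_one`      : `ψ = 1` ⟹ trivial action (`htriv` of `piece_hT_of_realHyp`, Minkowski);
* `smul_eq_neg`            : `ψ c = -1` ⟹ `c • q = -q` (`hneg` of `piece_hT_of_cobHyp`);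
* `exists_add_self_eq`     : `r` odd ⟹ `∀ q, ∃ q', q' + q' = q` (`h2` of `piece_hT_of_cobHyp`);
On `G_ℚ`:
* `cyc_complexConjugation` : `cyc r c = -1`;
* `exists_character`       : `ψ = cyc r` ⟹ a faithful equivariant character
  `χ : Multiplicative P →* ℚ̄` with `χ m₀` a primitive `r`-th root of unity
  (`χ`, `m₀`, `hζ`, `hχ` of `PieceType.flat_exists_unit_class_of_local` / ARITH-MU, verbatim);
* `inertia_smul_eq`        : `ψ = cyc r` ⟹ the inertia at `ℓ ≠ r` acts trivially.
Instance: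
* `exists_flag_eisPart_pieces` : the flag of `EisPart.exists_flag_eisPart` with, for every piece,
  `#piece = r` and (trivial action ∨ action through `cyc r`).
-/
import Mathlib
import Fermat.Agent.GZ.Const.EisPart
import Fermat.Agent.GJ.Cyc.TateCyc

set_option autoImplicit false

namespace Fermat.Agent.GZ.Const.PiecePlug

open Fermat.Agent.GZ.Dev Fermat.Agent.GJ.CycChar Fermat.Agent.GZ.Const.FlagDev
  Fermat.Agent.GZ.Const.EisPart

local notation "Qb" => AlgebraicClosure ℚ
local notation "GQ" => (AlgebraicClosure ℚ ≃ₐ[ℚ] AlgebraicClosure ℚ)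

section Generic

variable {G : Type*} [Group G] (r : ℕ) (ψ : G →* (ZMod r)ˣ)
variable (P : Type*) [AddCommGroup P] [DistribMulAction G P]

/-- `G` acts on `P` through the character `ψ` (every integer lift of `ψ σ` acts as `σ`). -/
def ActsThrough : Prop :=
  ∀ (σ : G) (a : ℤ), (a : ZMod r) = ((ψ σ : (ZMod r)ˣ) : ZMod r) → ∀ q : P, σ • q = a • q

variable {r ψ P}

theorem smul_eq_of_eq_one (h : ActsThrough r ψ P) (hψ : ψ = 1) (σ : G) (q : P) : σ • q = q := by
  have := h σ 1 (by rw [hψ, MonoidHom.one_apply, Units.val_one, Int.cast_one]) q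
  rwa [one_smul] at this

theorem smul_eq_neg (h : ActsThrough r ψ P) {c : G}
    (hc : ((ψ c : (ZMod r)ˣ) : ZMod r) = -1) (q : P) : c • q = -q := by
  have := h c (-1) (by rw [hc, Int.cast_neg, Int.cast_one]) q
  rwa [neg_smul, one_smul] at this

theorem exists_add_self_eq [Finite P] (hcard : Nat.card P = r) (hodd : Odd r) (q : P) :
    ∃ q' : P, q' + q' = q := by
  obtain ⟨m, hm⟩ := hodd
  refine ⟨(m + 1) • q, ?_⟩
  have hr : r • q = 0 := by rw [← hcard]; exact card_nsmul_eq_zero'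
  rw [← add_nsmul]
  have e : m + 1 + (m + 1) = r + 1 := by omega
  rw [e, add_nsmul, hr, zero_add, one_nsmul]

end Generic

section OnGQ

variable (r : ℕ) [Fact r.Prime]

/-- the mod `r` cyclotomic character has value `-1` at complex conjugation. -/
theorem cyc_complexConjugation :
    ((cyc r complexConjugation : (ZMod r)ˣ) : ZMod r) = -1 := by
  obtain ⟨ζ, hζ⟩ := exists_primitiveRoot r
  have hr : r ≠ 0 := (Fact.out : r.Prime).ne_zero
  have h1 : complexConjugation ζ = ζ⁻¹ :=
    Fermat.Agent.GJ.Cyc.complexConjugation_rootOfUnity r hr ζ hζ.pow_eq_one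
  have h2 : ζ⁻¹ = ζ ^ (r - 1) := by
    apply inv_eq_of_mul_eq_one_left
    rw [← pow_succ, Nat.sub_add_cancel (Fact.out : r.Prime).one_le, hζ.pow_eq_one]
  have h3 := (cyc_eq_natCast_iff hζ complexConjugation (r - 1)).mpr (h1.trans h2)
  rw [h3, Nat.cast_sub (Fact.out : r.Prime).one_le, Nat.cast_one, ZMod.natCast_self, zero_sub]

variable {r}
variable {P : Type*} [AddCommGroup P] [DistribMulAction GQ P]

/-- complex conjugation acts by `-1` on a piece of cyclotomic type. -/
theorem complexConjugation_smul (h : ActsThrough r (cyc r) P) (q : P) :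
    complexConjugation • q = -q :=
  smul_eq_neg h (cyc_complexConjugation r) q

/-- the inertia at `ℓ ≠ r` acts trivially on a piece of cyclotomic type. -/
theorem inertia_smul_eq (h : ActsThrough r (cyc r) P) {ℓ : ℕ} (hℓ : ℓ.Prime) (hne : ℓ ≠ r)
    {A : ValuationSubring Qb} (hA : A.LiesOverPrime ℓ) {σ : GQ}
    (hσ : σ ∈ A.inertiaSubgroupIn ℚ) (q : P) : σ • q = q := by
  have := h σ 1 (by rw [cyc_inertia hℓ hne hA hσ, Units.val_one, Int.cast_one]) q
  rwa [one_smul] at this

/-- **the faithful equivariant character of a piece of cyclotomic type.** -/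
theorem exists_character [Finite P] (hcard : Nat.card P = r) (h : ActsThrough r (cyc r) P) :
    ∃ (χ : Multiplicative P →* Qb) (m₀ : P),
      IsPrimitiveRoot (χ (Multiplicative.ofAdd m₀)) r ∧
      (∀ (σ : GQ) (m : P),
        χ (Multiplicative.ofAdd (σ • m)) = σ • χ (Multiplicative.ofAdd m)) ∧
      Function.Injective χ := by
  classical
  have hrp : r.Prime := Fact.out
  obtain ⟨ζ, hζ⟩ := exists_primitiveRoot r
  obtain ⟨u, hu⟩ := hζ.isUnit hrp.ne_zero
  have hup : IsPrimitiveRoot u r := by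
    rw [← IsPrimitiveRoot.coe_units_iff, hu]; exact hζ
  -- a generator of `P`
  haveI : Fact (Nat.card (Multiplicative P)).Prime := ⟨by
    rw [Nat.card_congr Multiplicative.toAdd, hcard]; exact hrp⟩
  haveI : IsCyclic (Multiplicative P) := isCyclic_of_prime_card rfl
  obtain ⟨g, hg⟩ := IsCyclic.exists_generator (α := Multiplicative P)
  have hord : orderOf g = r := by
    rw [orderOf_eq_card_of_forall_mem_zpowers hg, Nat.card_congr Multiplicative.toAdd, hcard]
  have hordu : orderOf u = r := hup.eq_orderOf.symm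
  have hdvd : orderOf u ∣ orderOf g := by rw [hord, hordu]
  let χ₀ : Multiplicative P →* Qbˣ := monoidHomOfForallMemZpowers hg hdvd
  have hχ₀g : χ₀ g = u := monoidHomOfForallMemZpowers_apply_gen hg hdvd
  let χ : Multiplicative P →* Qb := (Units.coeHom Qb).comp χ₀
  have hχg : χ g = ζ := by
    show ((χ₀ g : Qbˣ) : Qb) = ζ
    rw [hχ₀g, hu]
  refine ⟨χ, Multiplicative.toAdd g, ?_, ?_, ?_⟩
  · rw [ofAdd_toAdd, hχg]; exact hζ
  · intro σ m
    obtain ⟨k, hk⟩ := hg (Multiplicative.ofAdd m)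
    set n : ℕ := ((cyc r σ : (ZMod r)ˣ) : ZMod r).val with hn
    have hσm : σ • m = (n : ℤ) • m :=
      h σ n (by rw [Int.cast_natCast, hn, ZMod.natCast_zmod_val]) m
    have e1 : Multiplicative.ofAdd ((n : ℤ) • m) = (Multiplicative.ofAdd m) ^ n := by
      rw [natCast_zsmul]; rfl
    rw [hσm, e1, map_pow, ← hk, map_zpow, hχg]
    show (ζ ^ k) ^ n = σ (ζ ^ k)
    rw [map_zpow₀, apply_eq_pow hζ σ, ← hn, ← zpow_natCast, ← zpow_natCast, ← zpow_mul,
      ← zpow_mul, mul_comm]
  · rw [injective_iff_map_eq_one]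
    intro x hx
    obtain ⟨k, rfl⟩ := hg x
    rw [map_zpow, hχg] at hx
    have hdvd' : (r : ℤ) ∣ k := (hζ.zpow_eq_one_iff_dvd k).mp hx
    rw [← hord] at hdvd'
    exact (orderOf_dvd_iff_zpow_eq_one).mp hdvd'

end OnGQ

section Inst

variable (p : ℕ) [NeZero p] (hp : p.Prime) (S : Finset ℕ) (r k : ℕ) (hr : r ≠ 0)

/-- **The Kolchin flag of the Eisenstein part of `J₀(p)[r^k]`, piece by piece**: every piece has
`r` elements and `G_ℚ` acts on it trivially or through the mod `r` cyclotomic character. -/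
theorem exists_flag_eisPart_pieces [hrp : Fact r.Prime] :
    ∃ (d : ℕ) (F : ℕ → StableSub GQ ↥(eisSub p hp S r k hr).U),
      Nat.card ↥(eisSub p hp S r k hr).U = r ^ d ∧
      (F 0).U = ⊥ ∧ (F d).U = ⊤ ∧ (∀ i, i < d → (F i).U ≤ (F (i + 1)).U) ∧
      (∀ i, i ≤ d → Nat.card (F i).U = r ^ i) ∧
      ∀ i, i < d →
        Nat.card (↥(F (i + 1)).U ⧸ ((F i).sub (F (i + 1))).U) = r ∧
        ((∀ (σ : GQ) (q : ↥(F (i + 1)).U ⧸ ((F i).sub (F (i + 1))).U), σ • q = q) ∨
          ActsThrough r (cyc r) (↥(F (i + 1)).U ⧸ ((F i).sub (F (i + 1))).U)) := by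
  obtain ⟨d, hd, F, h0, hn, hmono, hcard, hgr⟩ := exists_flag_eisPart p hp S r k hr
  refine ⟨d, F, hd, h0, hn, hmono, hcard, fun i hi => ⟨?_, ?_⟩⟩
  · exact card_piece (F i) (F (i + 1)) (hmono i hi) (hcard i hi.le) (hcard (i + 1) hi)
      hrp.out.pos
  · obtain ⟨ψ, hψ, hact⟩ := hgr i hi
    have hthrough : ActsThrough r ψ (↥(F (i + 1)).U ⧸ ((F i).sub (F (i + 1))).U) :=
      fun σ a ha q => smul_piece (F i) (F (i + 1)) σ a (hact σ a ha) q
    rcases hψ with rfl | rfl
    · exact Or.inl fun σ q => smul_eq_of_eq_one hthrough rfl σ q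
    · exact Or.inr hthrough

end Inst

end Fermat.Agent.GZ.Const.PiecePlug
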